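import Fermat.Agent.S48.Coh1.Supp
import Fermat.Agent.ES.Glue.Psi

/-!
# S48 / Coh1: from a "character theory" of a Kummer group to finiteness and the support property

Abstract version of `ES/Glue/{Psi,Iota,Supp}`.

* `Corr.opMul χ` : the multiplicative transfer `γ ↦ ∏ x, χ (c γ x)` of a character;
* `IsGood ψ`     : unitary characters of `Γ` killing all `γ` with `|tr γ| ≤ 2`; stable under `opMul`;
* `expChar m φ`  : `γ ↦ exp (2πi φ(γ) / m)`;
* `CharTheory Γ G P m` : the statements (K1)-(K4) for a group `G` (`= Dm`) and a subgroup `P`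
  (`=` the `m`-th powers);
* `CharTheory.finite`, `CharTheory.supp`.
-/

set_option autoImplicit false
set_option linter.unusedSectionVars false

open UpperHalfPlane ModularForm CongruenceSubgroup Filter Topology Matrix.SpecialLinearGroup
open scoped MatrixGroups ModularForm Manifold

namespace Fermat.Agent.S48.Coh1

open ModularCurve ModularCurve.Period Matrix
open Fermat.Agent.ES.Glue (pow_twelve_eq_one zpow_finset_sum zetaU zetaU_isPrimitiveRoot)

noncomputable section

variable {Γ : Subgroup SL(2, ℤ)}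

/-! ### the multiplicative transfer -/

/-- the multiplicative transfer of a character along a correspondence. -/
def Corr.opMul (C : Corr Γ) {G : Type} [CommGroup G] (χ : Γ →* G) : Γ →* G where
  toFun γ := ∏ x, χ (C.c γ x)
  map_one' := by simp [C.c_one]
  map_mul' γ δ := by
    simp only [C.c_mul, map_mul, Finset.prod_mul_distrib]
    congr 1
    exact Equiv.prod_comp (C.perm γ) (fun x => χ (C.c δ x))

theorem Corr.opMul_apply (C : Corr Γ) {G : Type} [CommGroup G] (χ : Γ →* G) (γ : Γ) :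
    C.opMul χ γ = ∏ x, χ (C.c γ x) := rfl

theorem Corr.opMul_mul (C : Corr Γ) {G : Type} [CommGroup G] (χ χ' : Γ →* G) :
    C.opMul (χ * χ') = C.opMul χ * C.opMul χ' := by
  ext γ
  simp [Corr.opMul_apply, Finset.prod_mul_distrib]

theorem Corr.toAdditive_opMul (C : Corr Γ) {G : Type} [CommGroup G] (χ : Γ →* G) :
    MonoidHom.toAdditive (C.opMul χ) = C.op (Additive G) (MonoidHom.toAdditive χ) := by
  refine AddMonoidHom.ext fun γ => ?_
  rfl

/-! ### good characters -/

theorem trace_sq_eq' (M : Matrix (Fin 2) (Fin 2) ℤ) (hdet : M.det = 1) :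
    (M ^ 2).trace = M.trace ^ 2 - 2 := by
  rw [Matrix.det_fin_two] at hdet
  rw [pow_two, Matrix.trace_fin_two, Matrix.trace_fin_two, Matrix.mul_apply, Matrix.mul_apply,
    Fin.sum_univ_two, Fin.sum_univ_two]
  linear_combination (-2 : ℤ) * hdet

theorem abs_trace_le_two_of_pow_twelve' (M : Matrix (Fin 2) (Fin 2) ℤ) (hdet : M.det = 1)
    (h : M ^ 12 = 1) : |M.trace| ≤ 2 := by
  by_contra hlt
  rw [not_le] at hlt
  have h9 : 9 ≤ M.trace ^ 2 := by
    have : 3 ≤ |M.trace| := hlt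
    rw [← sq_abs]
    nlinarith
  have hd : ∀ k : ℕ, (M ^ k).det = 1 := fun k => by rw [Matrix.det_pow, hdet, one_pow]
  have e2 := trace_sq_eq' M hdet
  have e4 := trace_sq_eq' (M ^ 2) (hd 2)
  have e8 := trace_sq_eq' (M ^ 4) (hd 4)
  have e16 := trace_sq_eq' (M ^ 8) (hd 8)
  rw [← pow_mul] at e4 e8 e16
  norm_num at e4 e8 e16
  have h16 : M ^ 16 = M ^ 4 := by
    rw [show 16 = 12 + 4 from rfl, pow_add, h, one_mul]
  rw [h16] at e16
  set a := (M ^ 4).trace
  set b := (M ^ 8).trace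
  have ha : 47 ≤ a := by rw [e4, e2]; nlinarith
  have hb : a < b := by rw [e8]; nlinarith
  nlinarith

/-- unitary characters of `Γ` killing `±1`, elliptic and parabolic elements. -/
def IsGood (ψ : Γ →* ℂˣ) : Prop :=
  (∀ γ, ‖((ψ γ : ℂˣ) : ℂ)‖ = 1) ∧
    ∀ γ : Γ, |((γ : SL(2, ℤ)) : Matrix (Fin 2) (Fin 2) ℤ).trace| ≤ 2 → ψ γ = 1

/-- killing `|tr| ≤ 2` is the same as killing parabolic and finite order elements. -/
theorem kills_iff_isParEll {G : Type} [CommGroup G] (ψ : Γ →* G) :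
    (∀ γ : Γ, |((γ : SL(2, ℤ)) : Matrix (Fin 2) (Fin 2) ℤ).trace| ≤ 2 → ψ γ = 1)
      ↔ IsParEll Γ (MonoidHom.toAdditive ψ) := by
  constructor
  · intro h
    refine ⟨fun γ hγ => ?_, fun γ hγ => ?_⟩
    · refine congrArg Additive.ofMul (h γ ?_)
      have h4 : |((γ : SL(2, ℤ)) : Matrix (Fin 2) (Fin 2) ℤ).trace| ^ 2 = 4 := by
        rw [sq_abs, hγ]
      nlinarith [abs_nonneg ((γ : SL(2, ℤ)) : Matrix (Fin 2) (Fin 2) ℤ).trace]
    · refine congrArg Additive.ofMul (h γ ?_)
      refine abs_trace_le_two_of_pow_twelve' _ (γ : SL(2, ℤ)).det_coe ?_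
      have := congrArg (fun g : Γ => ((g : SL(2, ℤ)) : Matrix (Fin 2) (Fin 2) ℤ)) hγ
      simpa using this
  · intro hφ γ hγ
    by_cases h1 : |((γ : SL(2, ℤ)) : Matrix (Fin 2) (Fin 2) ℤ).trace| ≤ 1
    · refine congrArg Additive.toMul (hφ.2 γ ?_)
      apply Subtype.ext
      apply Subtype.ext
      rw [Subgroup.coe_pow, Matrix.SpecialLinearGroup.coe_pow]
      exact pow_twelve_eq_one _ (γ : SL(2, ℤ)).det_coe h1
    · refine congrArg Additive.toMul (hφ.1 γ ?_)
      have h2 : |((γ : SL(2, ℤ)) : Matrix (Fin 2) (Fin 2) ℤ).trace| = 2 := by omega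
      rw [← sq_abs, h2]
      norm_num

/-- good characters are stable under correspondences. -/
theorem IsGood.opMul (C : Corr Γ) {ψ : Γ →* ℂˣ} (hψ : IsGood ψ) : IsGood (C.opMul ψ) := by
  constructor
  · intro γ
    rw [Corr.opMul_apply, Units.coe_prod, norm_prod]
    exact Finset.prod_eq_one fun x _ => hψ.1 _
  · rw [kills_iff_isParEll, Corr.toAdditive_opMul]
    exact C.isParEll_op ((kills_iff_isParEll ψ).1 hψ.2)

/-! ### exponential characters -/

/-- the character `γ ↦ exp (2πi φ(γ) / m)` attached to `φ : Γ → ℤ`. -/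
def expChar (m : ℕ) (φ : Additive Γ →+ ℤ) : Γ →* ℂˣ where
  toFun γ := zetaU m ^ φ (Additive.ofMul γ)
  map_one' := by rw [ofMul_one, map_zero, zpow_zero]
  map_mul' γ δ := by rw [ofMul_mul, map_add, _root_.zpow_add]

theorem expChar_apply (m : ℕ) (φ : Additive Γ →+ ℤ) (γ : Γ) :
    expChar m φ γ = zetaU m ^ φ (Additive.ofMul γ) := rfl

theorem expChar_add (m : ℕ) (φ φ' : Additive Γ →+ ℤ) :
    expChar m (φ + φ') = expChar m φ * expChar m φ' := by
  ext γ
  rw [MonoidHom.mul_apply, expChar_apply, expChar_apply, expChar_apply, AddMonoidHom.add_apply,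
    _root_.zpow_add]

variable {m : ℕ}

theorem expChar_pow (hm : m ≠ 0) (φ : Additive Γ →+ ℤ) : expChar m φ ^ m = 1 := by
  ext γ
  rw [MonoidHom.pow_apply, expChar_apply, MonoidHom.one_apply, ← zpow_natCast, ← _root_.zpow_mul,
    mul_comm, _root_.zpow_mul, zpow_natCast, (zetaU_isPrimitiveRoot hm).pow_eq_one, _root_.one_zpow]

theorem expChar_eq_one_iff (hm : m ≠ 0) (φ : Additive Γ →+ ℤ) :
    expChar m φ = 1 ↔ ∀ γ : Γ, (m : ℤ) ∣ φ (Additive.ofMul γ) := by
  constructor
  · intro h γ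
    have := DFunLike.congr_fun h γ
    rw [expChar_apply, MonoidHom.one_apply] at this
    exact ((zetaU_isPrimitiveRoot hm).zpow_eq_one_iff_dvd _).mp this
  · intro h
    ext γ
    rw [expChar_apply, MonoidHom.one_apply,
      ((zetaU_isPrimitiveRoot hm).zpow_eq_one_iff_dvd _).mpr (h γ)]

theorem isGood_expChar (hm : m ≠ 0) {φ : Additive Γ →+ ℤ} (hφ : IsParEll Γ φ) :
    IsGood (expChar m φ) := by
  constructor
  · intro γ
    refine Complex.norm_eq_one_of_pow_eq_one (n := m) ?_ hm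
    have := DFunLike.congr_fun (expChar_pow hm φ) γ
    rw [MonoidHom.pow_apply, MonoidHom.one_apply] at this
    rw [← Units.val_pow_eq_pow_val, this, Units.val_one]
  · rw [kills_iff_isParEll]
    refine ⟨fun γ hγ => ?_, fun γ hγ => ?_⟩
    · show Additive.ofMul (expChar m φ γ) = 0
      rw [expChar_apply, hφ.1 γ hγ, zpow_zero]; rfl
    · show Additive.ofMul (expChar m φ γ) = 0
      rw [expChar_apply, hφ.2 γ hγ, zpow_zero]; rfl

theorem expChar_op (C : Corr Γ) (φ : Additive Γ →+ ℤ) :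
    expChar m (C.op ℤ φ) = C.opMul (expChar m φ) := by
  ext γ
  rw [expChar_apply, Corr.op_apply, Corr.opMul_apply]
  simp only [expChar_apply]
  rw [zpow_finset_sum]

/-- finitely many characters of exponent `m`. -/
theorem finite_chars [Γ.FiniteIndex] (hm : m ≠ 0) : {χ : Γ →* ℂˣ | χ ^ m = 1}.Finite := by
  classical
  have hG : Group.FG Γ := inferInstance
  obtain ⟨S, hS⟩ := hG.out
  have : NeZero m := ⟨hm⟩
  let Φ : {χ : Γ →* ℂˣ | χ ^ m = 1} → (S → rootsOfUnity m ℂ) :=
    fun χ s => ⟨χ.1 s, by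
      rw [mem_rootsOfUnity]
      exact DFunLike.congr_fun χ.2 (s : Γ)⟩
  have hΦ : Function.Injective Φ := by
    intro χ χ' h
    apply Subtype.ext
    apply MonoidHom.eq_of_eqOn_dense hS
    intro s hs
    have := congrArg Subtype.val (congrFun h ⟨s, hs⟩)
    exact this
  exact Set.finite_coe_iff.1 (Finite.of_injective Φ hΦ)

/-! ### character theories -/

/-- The statements (K1)-(K4): `G` is the group of functions with divisor divisible by `m`, `P` the
subgroup of `m`-th powers, `Has f χ` says that the `m`-th roots of `f` on `ℍ` transform by `χ`. -/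
structure CharTheory (Γ : Subgroup SL(2, ℤ)) (G : Type) [CommGroup G] (P : Subgroup G) (m : ℕ) where
  /-- `χ` is the character of `f` -/
  Has : G → (Γ →* ℂˣ) → Prop
  exists_has : ∀ f, ∃ χ, Has f χ ∧ χ ^ m = 1
  unique : ∀ {f χ χ'}, Has f χ → Has f χ' → χ = χ'
  mul : ∀ {f g χ χ'}, Has f χ → Has g χ' → Has (f * g) (χ * χ')
  one_iff : ∀ f, Has f 1 ↔ f ∈ P
  surj : ∀ ψ : Γ →* ℂˣ, IsGood ψ → ψ ^ m = 1 → ∃ f, Has f ψ

namespace CharTheory

variable {G : Type} [CommGroup G] {P : Subgroup G} (K : CharTheory Γ G P m)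

/-- the character of `f`. -/
def chrD (f : G) : Γ →* ℂˣ := (K.exists_has f).choose

theorem chrD_spec (f : G) : K.Has f (K.chrD f) := (K.exists_has f).choose_spec.1

theorem chrD_pow (f : G) : K.chrD f ^ m = 1 := (K.exists_has f).choose_spec.2

theorem chrD_eq {f : G} {χ : Γ →* ℂˣ} (h : K.Has f χ) : K.chrD f = χ := K.unique (K.chrD_spec f) h

theorem chrD_mul (f g : G) : K.chrD (f * g) = K.chrD f * K.chrD g :=
  K.chrD_eq (K.mul (K.chrD_spec f) (K.chrD_spec g))

/-- `chrD` as a homomorphism. -/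
def chrDHom : G →* (Γ →* ℂˣ) := MonoidHom.mk' K.chrD K.chrD_mul

theorem chrD_eq_one_iff (f : G) : K.chrD f = 1 ↔ f ∈ P := by
  rw [← K.one_iff]
  constructor
  · intro h
    have := K.chrD_spec f
    rwa [h] at this
  · intro h
    exact K.chrD_eq h

/-- the character of a Kummer class. -/
def chr : Additive (G ⧸ P) →+ Additive (Γ →* ℂˣ) :=
  MonoidHom.toAdditive (QuotientGroup.lift P K.chrDHom (fun f hf => (K.chrD_eq_one_iff f).2 hf))

theorem chr_mk (f : G) :
    K.chr (Additive.ofMul (QuotientGroup.mk f)) = Additive.ofMul (K.chrD f) := rfl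

theorem chr_injective : Function.Injective K.chr := by
  rw [injective_iff_map_eq_zero]
  intro x hx
  obtain ⟨f, hf⟩ := QuotientGroup.mk_surjective (Additive.toMul x)
  have hx' : x = Additive.ofMul (QuotientGroup.mk f) := by rw [hf]; rfl
  rw [hx'] at hx ⊢
  exact congrArg Additive.ofMul ((QuotientGroup.eq_one_iff f).2 ((K.chrD_eq_one_iff f).1 hx))

/-- **finiteness of the Kummer group.** -/
theorem finite [Γ.FiniteIndex] (K : CharTheory Γ G P m) (hm : m ≠ 0) :
    Finite (Additive (G ⧸ P)) := by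
  have : Finite {χ : Γ →* ℂˣ | χ ^ m = 1} := finite_chars hm
  let Φ : Additive (G ⧸ P) → {χ : Γ →* ℂˣ | χ ^ m = 1} := fun x => ⟨(K.chr x).toMul, by
    obtain ⟨f, hf⟩ := QuotientGroup.mk_surjective (Additive.toMul x)
    have hx' : x = Additive.ofMul (QuotientGroup.mk f) := by rw [hf]; rfl
    rw [hx']
    exact K.chrD_pow f⟩
  refine Finite.of_injective Φ fun x y h => K.chr_injective ?_
  exact congrArg (fun z : {χ : Γ →* ℂˣ | χ ^ m = 1} => Additive.ofMul z.1) h

variable [Γ.FiniteIndex]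

theorem comb_add (c c' : Fin (rk Γ) → ℤ) : comb Γ ℤ (c + c') = comb Γ ℤ c + comb Γ ℤ c' := by
  refine AddMonoidHom.ext fun g => ?_
  simp [comb_apply, add_mul, Finset.sum_add_distrib]

theorem exists_rep (hm : m ≠ 0) (c : Fin (rk Γ) → ℤ) :
    ∃ f : G, K.chrD f = expChar m (comb Γ ℤ c) := by
  obtain ⟨f, hf⟩ := K.surj (expChar m (comb Γ ℤ c)) (isGood_expChar hm (isParEll_comb Γ c))
    (expChar_pow hm _)
  exact ⟨f, K.chrD_eq hf⟩

/-- a function with character `ψ_c`. -/
def rep (hm : m ≠ 0) (c : Fin (rk Γ) → ℤ) : G := (K.exists_rep hm c).choose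

theorem chrD_rep (hm : m ≠ 0) (c : Fin (rk Γ) → ℤ) :
    K.chrD (K.rep hm c) = expChar m (comb Γ ℤ c) := (K.exists_rep hm c).choose_spec

/-- the map `Λ → Kum`. -/
def iota (hm : m ≠ 0) : (Fin (rk Γ) → ℤ) →+ Additive (G ⧸ P) :=
  AddMonoidHom.mk' (fun c => Additive.ofMul (QuotientGroup.mk (K.rep hm c))) (by
    intro c c'
    apply K.chr_injective
    rw [map_add, chr_mk, chr_mk, chr_mk, chrD_rep, chrD_rep, chrD_rep, comb_add, expChar_add]
    rfl)

theorem chr_iota (hm : m ≠ 0) (c : Fin (rk Γ) → ℤ) :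
    K.chr (K.iota hm c) = Additive.ofMul (expChar m (comb Γ ℤ c)) := by
  show K.chr (Additive.ofMul (QuotientGroup.mk (K.rep hm c))) = _
  rw [chr_mk, chrD_rep]

theorem iota_ker (hm : m ≠ 0) (c : Fin (rk Γ) → ℤ) (h : K.iota hm c = 0) (j : Fin (rk Γ)) :
    (m : ℤ) ∣ c j := by
  have h1 : expChar m (comb Γ ℤ c) = 1 := by
    have := K.chr_iota hm c
    rw [h, map_zero] at this
    exact this.symm
  rw [expChar_eq_one_iff hm] at h1
  have := h1 (gam Γ j)
  rwa [comb_gam] at this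

/-- an operator `b` on the Kummer group is compatible with the correspondence `C`. -/
def Compat (b : Module.End ℤ (Additive (G ⧸ P))) (C : Corr Γ) : Prop :=
  ∀ x, K.chr (b x) = Additive.ofMul (C.opMul (K.chr x).toMul)

theorem iota_mat (hm : m ≠ 0) {b : Module.End ℤ (Additive (G ⧸ P))} {C : Corr Γ}
    (h : K.Compat b C) (c : Fin (rk Γ) → ℤ) : K.iota hm (C.matᵀ *ᵥ c) = b (K.iota hm c) := by
  apply K.chr_injective
  rw [h, chr_iota, chr_iota, toMul_ofMul, ← expChar_op, Corr.op_comb]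
  congr 3
  funext j
  simp only [Matrix.mulVec, dotProduct, Matrix.transpose_apply, Int.cast_id]
  exact Finset.sum_congr rfl fun i _ => mul_comm _ _

variable {ι : Type} (b : ι → Module.End ℤ (Additive (G ⧸ P))) (C : ι → Corr Γ)

theorem iota_matRep (hm : m ≠ 0) (h : ∀ i, K.Compat (b i) (C i)) (F : FreeAlgebra ℤ ι) :
    ∀ c, K.iota hm (matRep C F *ᵥ c) = FreeAlgebra.lift ℤ b F (K.iota hm c) := by
  induction F using FreeAlgebra.induction with
  | grade0 n =>
    intro c
    rw [AlgHom.commutes, AlgHom.commutes, Module.algebraMap_end_apply,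
      Algebra.algebraMap_eq_smul_one, smul_mulVec, one_mulVec, map_zsmul]
  | grade1 i =>
    intro c
    rw [matRep, FreeAlgebra.lift_ι_apply, FreeAlgebra.lift_ι_apply, K.iota_mat hm (h i)]
  | mul x y hx hy =>
    intro c
    rw [map_mul, map_mul, ← mulVec_mulVec, hx, hy, Module.End.mul_apply]
  | add x y hx hy =>
    intro c
    rw [map_add, map_add, add_mulVec, map_add, hx, hy, LinearMap.add_apply]

/-- a polynomial killing the Kummer group has a matrix divisible by `m`. -/
theorem dvd_matRep (hm : m ≠ 0) (h : ∀ i, K.Compat (b i) (C i)) (F : FreeAlgebra ℤ ι)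
    (hF : FreeAlgebra.lift ℤ b F = 0) (i j : Fin (rk Γ)) : (m : ℤ) ∣ matRep C F i j := by
  classical
  have h1 := K.iota_matRep b C hm h F (Pi.single j 1)
  rw [hF, LinearMap.zero_apply] at h1
  have h2 := K.iota_ker hm _ h1 i
  rwa [mulVec_single_one] at h2

end CharTheory

/-- a version of `PerData.supp` with the divisibility of the matrix as hypothesis. -/
theorem PerData.supp_of_dvd [Γ.FiniteIndex] {S : Type} [AddCommGroup S] [Module ℂ S]
    (D : PerData Γ S) {ι : Type} (Top : ι → Module.End ℂ S) (C : ι → Corr Γ)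
    (hTC : ∀ i f, D.per (Top i f) = (C i).op ℂ (D.per f)) (hm : m ≠ 0) (F : FreeAlgebra ℤ ι)
    (hdvd : ∀ i j, (m : ℤ) ∣ matRep C F i j) :
    ∃ Q : Module.End ℂ S, IsIntegral ℤ Q ∧ FreeAlgebra.lift ℤ Top F = (m : ℤ) • Q := by
  classical
  choose M' hM' using hdvd
  have hM : matRep C F = (m : ℤ) • Matrix.of M' := by
    ext i j
    rw [hM' i j]
    simp
  have hm' : (m : ℂ) ≠ 0 := by exact_mod_cast hm
  set Q : Module.End ℂ S := (m : ℂ)⁻¹ • FreeAlgebra.lift ℤ Top F with hQ
  have hQmem : (Q, Matrix.of M') ∈ D.compat := by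
    intro f
    have h1 := D.liftPair_mem Top C hTC F f
    show D.vec (Q f) = _
    rw [hQ, LinearMap.smul_apply, map_smul, h1]
    simp only [hM]
    have : (((m : ℤ) • Matrix.of M').map (Int.cast : ℤ → ℂ))
        = (m : ℂ) • ((Matrix.of M').map (Int.cast : ℤ → ℂ)) := by
      ext i j
      simp
    rw [this, Matrix.smul_mulVec, smul_smul, inv_mul_cancel₀ hm', one_smul]
  refine ⟨Q, D.isIntegral_of_mem_compat hQmem, ?_⟩
  rw [hQ]
  ext1 f
  simp only [LinearMap.smul_apply]
  rw [← Int.cast_smul_eq_zsmul ℂ, smul_smul]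
  simp [hm']

/-- **The support property of a Kummer group with a character theory.** -/
theorem CharTheory.supp [Γ.FiniteIndex] {G : Type} [CommGroup G] {P : Subgroup G}
    (K : CharTheory Γ G P m) (hm : m ≠ 0) {S : Type} [AddCommGroup S] [Module ℂ S]
    (D : PerData Γ S) {ι : Type} (Top : ι → Module.End ℂ S) (C : ι → Corr Γ)
    (hTC : ∀ i f, D.per (Top i f) = (C i).op ℂ (D.per f))
    (b : ι → Module.End ℤ (Additive (G ⧸ P))) (hb : ∀ i, K.Compat (b i) (C i))
    (F : FreeAlgebra ℤ ι) (hF : FreeAlgebra.lift ℤ b F = 0) :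
    ∃ Q : Module.End ℂ S, IsIntegral ℤ Q ∧ FreeAlgebra.lift ℤ Top F = (m : ℤ) • Q :=
  D.supp_of_dvd Top C hTC hm F (K.dvd_matRep b C hm hb F hF)

end

end Fermat.Agent.S48.Coh1
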