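import Fermat.Agent.S48.Coh1.Corr

/-!
# S48 / Coh1: the correspondences `T_p` (`p ∤ M`) and `⟨d⟩` on `Γ₁(M)`

THE coset representatives of S48 (shared by parts H, An1, Coh1):

* `sig M d ∈ Γ₀(M)` : lower right entry `≡ d mod M`   (`Gamma0Map M (sig M d) = d`);
* `⟨d⟩` : the single representative `sig M d`;
* `T_p` : index set `ℙ¹(𝔽_p) = OnePoint (ZMod p)`,
    `repT b = (1 b; 0 p)` (`= heckeMatrix p b.val`),  `repT ∞ = sig M p * (p 0; 0 1)`.

Both are first constructed as correspondences on `Γ₀(M)` whose cocycle preserves `Gamma0Map`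
(`T0`, `D0`), then restricted to `Γ₁(M)` (`T1`, `D1`).
-/

set_option autoImplicit false
set_option linter.unusedSectionVars false

open UpperHalfPlane ModularForm CongruenceSubgroup Filter Topology Matrix.SpecialLinearGroup
open scoped MatrixGroups ModularForm Manifold

namespace Fermat.Agent.S48.Coh1

open ModularCurve ModularCurve.Period
open Fermat.Agent.S16.Shimura (corrT corrT_spec)
open Fermat.Agent.ES.Coh (redMatrix_mul)
open P2MW.S_ModularForm_heckeT_slash_eq_self_of_mem_Gamma0.ModularForm.HeckeSlashInvariance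

/-- restriction of a correspondence to a subgroup stable under the cocycle. -/
def Corr.restrict {Γ Γ' : Subgroup SL(2, ℤ)} (C : Corr Γ) (h : Γ' ≤ Γ)
    (hc : ∀ (γ : Γ) (x : C.X), (γ : SL(2, ℤ)) ∈ Γ' → (C.c γ x : SL(2, ℤ)) ∈ Γ') : Corr Γ' where
  X := C.X
  rep := C.rep
  perm γ := C.perm (Subgroup.inclusion h γ)
  c γ x := ⟨C.c (Subgroup.inclusion h γ) x, hc _ _ γ.2⟩
  perm_mul γ δ x := by
    rw [map_mul]
    exact C.perm_mul _ _ _
  spec γ x := C.spec (Subgroup.inclusion h γ) x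

variable (M : ℕ)

theorem mem_Gamma1_iff (g : Gamma0 M) : (g : SL(2, ℤ)) ∈ Gamma1 M ↔ Gamma0Map M g = 1 := by
  rw [Gamma1_mem, ← Gamma1_mem', Gamma1_to_Gamma0_mem]

theorem exists_sig [NeZero M] (d : (ZMod M)ˣ) : ∃ g : Gamma0 M, Gamma0Map M g = d := by
  have hcop : Nat.Coprime (d : ZMod M).val M := ZMod.val_coe_unit_coprime d
  have hb := Int.gcd_eq_gcd_ab ((d : ZMod M).val : ℤ) (M : ℤ)
  rw [Int.gcd_natCast_natCast, hcop] at hb
  set a := Int.gcdA ((d : ZMod M).val : ℤ) (M : ℤ)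
  set b := Int.gcdB ((d : ZMod M).val : ℤ) (M : ℤ)
  refine ⟨⟨⟨!![a, -b; (M : ℤ), ((d : ZMod M).val : ℤ)], ?_⟩, ?_⟩, ?_⟩
  · rw [Matrix.det_fin_two_of]
    push_cast at hb
    linarith
  · rw [Gamma0_mem]
    simp
  · simp [Gamma0Map]

/-- THE representative of the diamond operator `⟨d⟩`. -/
noncomputable def sig [NeZero M] (d : (ZMod M)ˣ) : Gamma0 M := (exists_sig M d).choose

@[simp] theorem Gamma0Map_sig [NeZero M] (d : (ZMod M)ˣ) : Gamma0Map M (sig M d) = d :=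
  (exists_sig M d).choose_spec

theorem Gamma0Map_isUnit (g : Gamma0 M) : IsUnit (Gamma0Map M g) :=
  (Group.isUnit g).map (Gamma0Map M)

theorem Gamma0Map_conj (σ γ : Gamma0 M) : Gamma0Map M (σ * γ * σ⁻¹) = Gamma0Map M γ := by
  have h : Gamma0Map M (σ * γ * σ⁻¹) * Gamma0Map M σ = Gamma0Map M γ * Gamma0Map M σ := by
    rw [← map_mul, inv_mul_cancel_right, map_mul, mul_comm]
  exact (Gamma0Map_isUnit M σ).mul_right_cancel h

/-! ### diamonds -/

/-- the correspondence of a single element `σ ∈ Γ₀(M)`, on `Γ₀(M)`. -/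
def D0 (σ : Gamma0 M) : Corr (Gamma0 M) where
  X := Unit
  rep _ := mapGL ℝ (σ : SL(2, ℤ))
  perm _ := 1
  c γ _ := σ * γ * σ⁻¹
  perm_mul _ _ _ := rfl
  spec γ _ := by
    rw [← map_mul, ← map_mul, ← Subgroup.coe_mul, ← Subgroup.coe_mul, inv_mul_cancel_right]

theorem Gamma0Map_D0_c (σ γ : Gamma0 M) (x : (D0 M σ).X) :
    Gamma0Map M ((D0 M σ).c γ x) = Gamma0Map M γ := Gamma0Map_conj M σ γ

/-- the diamond correspondence `⟨d⟩` on `Γ₁(M)`. -/
noncomputable def D1 [NeZero M] (d : (ZMod M)ˣ) : Corr (Gamma1 M) :=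
  (D0 M (sig M d)).restrict (Gamma1_in_Gamma0 M) (fun γ x hγ => by
    rw [mem_Gamma1_iff] at hγ ⊢
    rw [Gamma0Map_D0_c, hγ])

/-! ### `T_p` -/

section T

variable [NeZero M] (p : ℕ) [Fact p.Prime] (hpM : ¬ p ∣ M)

/-- `p` as a unit modulo `M`. -/
def unitP : (ZMod M)ˣ :=
  ZMod.unitOfCoprime p ((Nat.Prime.coprime_iff_not_dvd Fact.out).2 hpM)

@[simp] theorem coe_unitP : ((unitP M p hpM : (ZMod M)ˣ) : ZMod M) = (p : ZMod M) := rfl

/-- the twisting elements: `σ_p` at `∞`, `1` at the finite points. -/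
noncomputable def sT (x : OnePoint (ZMod p)) : Gamma0 M :=
  x.elim (sig M (unitP M p hpM)) (fun _ => 1)

@[simp] theorem sT_infty : sT M p hpM OnePoint.infty = sig M (unitP M p hpM) := rfl

@[simp] theorem sT_coe (b : ZMod p) : sT M p hpM (b : OnePoint (ZMod p)) = 1 := rfl

/-- THE coset representatives of `T_p` on `Γ₁(M)`. -/
noncomputable def repT (x : OnePoint (ZMod p)) : GL (Fin 2) ℝ :=
  mapGL ℝ (sT M p hpM x : SL(2, ℤ)) * heckeRep p x

theorem repT_infty :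
    repT M p hpM OnePoint.infty = mapGL ℝ (sig M (unitP M p hpM) : SL(2, ℤ)) * heckeDiagMatrix p :=
  rfl

theorem repT_coe (b : ZMod p) :
    repT M p hpM (b : OnePoint (ZMod p)) = heckeMatrix p b.val := by
  simp [repT]

/-- the lower right entry of `heckeRep p x`. -/
def eT (x : OnePoint (ZMod p)) : ℤ := x.elim 1 (fun _ => (p : ℤ))

theorem heckeRep_one_one (x : OnePoint (ZMod p)) :
    (heckeRep p x : Matrix (Fin 2) (Fin 2) ℝ) 1 1 = (eT p x : ℝ) := by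
  have hp : p ≠ 0 := (Fact.out : p.Prime).ne_zero
  induction x using OnePoint.rec with
  | infty => simp [eT, hp]
  | coe b => simp [eT, hp]

theorem heckeRep_one_zero (x : OnePoint (ZMod p)) :
    (heckeRep p x : Matrix (Fin 2) (Fin 2) ℝ) 1 0 = 0 := by
  have hp : p ≠ 0 := (Fact.out : p.Prime).ne_zero
  induction x using OnePoint.rec with
  | infty => simp [hp]
  | coe b => simp [hp]

theorem exists_heckeRep_zero_one (x : OnePoint (ZMod p)) :
    ∃ n : ℤ, (heckeRep p x : Matrix (Fin 2) (Fin 2) ℝ) 0 1 = (n : ℝ) := by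
  have hp : p ≠ 0 := (Fact.out : p.Prime).ne_zero
  induction x using OnePoint.rec with
  | infty => exact ⟨0, by simp [hp]⟩
  | coe b => exact ⟨(b.val : ℤ), by simp [hp]⟩

theorem Gamma0Map_sT_mul_eT (x : OnePoint (ZMod p)) :
    Gamma0Map M (sT M p hpM x) * ((eT p x : ℤ) : ZMod M) = (p : ZMod M) := by
  induction x using OnePoint.rec with
  | infty => simp [eT]
  | coe b => simp [eT]

/-- `e(x) G(γ) = G(γ'_x) e(x γ)`. -/
theorem eT_mul_Gamma0Map (γ : Gamma0 M) (x : OnePoint (ZMod p)) :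
    ((eT p x : ℤ) : ZMod M) * Gamma0Map M γ
      = Gamma0Map M (corrT M p hpM γ x) * ((eT p (redMatrix p (γ : SL(2, ℤ)) • x) : ℤ) : ZMod M) := by
  have h := congrArg (fun A : GL (Fin 2) ℝ => (A : Matrix (Fin 2) (Fin 2) ℝ) 1 1)
    (corrT_spec M p hpM γ x)
  obtain ⟨n, hn⟩ := exists_heckeRep_zero_one p (redMatrix p (γ : SL(2, ℤ)) • x)
  simp only [Matrix.GeneralLinearGroup.coe_mul, Matrix.mul_apply, Fin.sum_univ_two,
    heckeRep_one_one, heckeRep_one_zero, hn, mapGL_apply, zero_mul, zero_add] at h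
  have h' : eT p x * (γ : SL(2, ℤ)) 1 1
      = (corrT M p hpM γ x : SL(2, ℤ)) 1 0 * n
        + (corrT M p hpM γ x : SL(2, ℤ)) 1 1 * eT p (redMatrix p (γ : SL(2, ℤ)) • x) := by
    exact_mod_cast h
  have h2 := congrArg (Int.cast : ℤ → ZMod M) h'
  push_cast at h2
  rw [Gamma0_mem.mp (corrT M p hpM γ x).2, zero_mul, zero_add] at h2
  exact h2

/-- the correspondence `T_p` on `Γ₀(M)`, with the representatives adapted to `Γ₁(M)`. -/
noncomputable def T0 : Corr (Gamma0 M) where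
  X := OnePoint (ZMod p)
  rep := repT M p hpM
  perm γ := MulAction.toPerm (redMatrix p (γ : SL(2, ℤ)))
  c γ x := sT M p hpM x * corrT M p hpM γ x * (sT M p hpM (redMatrix p (γ : SL(2, ℤ)) • x))⁻¹
  perm_mul γ δ x := by
    simp only [MulAction.toPerm_apply, Subgroup.coe_mul, redMatrix_mul, mul_smul]
  spec γ x := by
    simp only [MulAction.toPerm_apply, repT, Subgroup.coe_mul, map_mul, Subgroup.coe_inv, map_inv]
    rw [mul_assoc, corrT_spec M p hpM γ x]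
    group

theorem T0_c (γ : Gamma0 M) (x : OnePoint (ZMod p)) :
    (T0 M p hpM).c γ x
      = sT M p hpM x * corrT M p hpM γ x * (sT M p hpM (redMatrix p (γ : SL(2, ℤ)) • x))⁻¹ := rfl

theorem T0_perm (γ : Gamma0 M) (x : OnePoint (ZMod p)) :
    (T0 M p hpM).perm γ x = redMatrix p (γ : SL(2, ℤ)) • x := rfl

theorem Gamma0Map_T0_c (γ : Gamma0 M) (x : OnePoint (ZMod p)) :
    Gamma0Map M ((T0 M p hpM).c γ x) = Gamma0Map M γ := by
  have hu : IsUnit ((p : ZMod M)) := (unitP M p hpM).isUnit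
  set y : OnePoint (ZMod p) := redMatrix p (γ : SL(2, ℤ)) • x with hy
  have h1 : (T0 M p hpM).c γ x * sT M p hpM y = sT M p hpM x * corrT M p hpM γ x := by
    rw [T0_c, inv_mul_cancel_right]
  have h2 := congrArg (Gamma0Map M) h1
  rw [map_mul, map_mul] at h2
  apply hu.mul_right_cancel
  calc Gamma0Map M ((T0 M p hpM).c γ x) * (p : ZMod M)
      = Gamma0Map M ((T0 M p hpM).c γ x) * Gamma0Map M (sT M p hpM y) * ((eT p y : ℤ) : ZMod M) := by
        rw [mul_assoc, Gamma0Map_sT_mul_eT]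
    _ = Gamma0Map M (sT M p hpM x) * (Gamma0Map M (corrT M p hpM γ x) * ((eT p y : ℤ) : ZMod M)) := by
        rw [h2, mul_assoc]
    _ = Gamma0Map M (sT M p hpM x) * ((eT p x : ℤ) : ZMod M) * Gamma0Map M γ := by
        rw [← eT_mul_Gamma0Map, mul_assoc]
    _ = Gamma0Map M γ * (p : ZMod M) := by rw [Gamma0Map_sT_mul_eT, mul_comm]

/-- the correspondence `T_p` on `Γ₁(M)`. -/
noncomputable def T1 : Corr (Gamma1 M) :=
  (T0 M p hpM).restrict (Gamma1_in_Gamma0 M) (fun γ x hγ => by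
    rw [mem_Gamma1_iff] at hγ ⊢
    exact (Gamma0Map_T0_c M p hpM γ x).trans hγ)

theorem T1_rep (x : OnePoint (ZMod p)) : (T1 M p hpM).rep x = repT M p hpM x := rfl

theorem T1_perm (γ : Gamma1 M) (x : OnePoint (ZMod p)) :
    (T1 M p hpM).perm γ x = redMatrix p (γ : SL(2, ℤ)) • x := rfl

theorem T1_c_coe (γ : Gamma1 M) (x : OnePoint (ZMod p)) :
    (((T1 M p hpM).c γ x : Gamma1 M) : SL(2, ℤ))
      = ((T0 M p hpM).c (Subgroup.inclusion (Gamma1_in_Gamma0 M) γ) x : Gamma0 M) := rfl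

/-- the operator of `T_p` on functions: `U_p f + V_p ⟨p⟩ f`. -/
theorem sum_slash_repT (k : ℤ) (f : ℍ → ℂ) :
    ∑ x : OnePoint (ZMod p), f ∣[k] repT M p hpM x
      = heckeU k p f
        + (f ∣[k] mapGL ℝ (sig M (unitP M p hpM) : SL(2, ℤ))) ∣[k] heckeDiagMatrix p := by
  have : NeZero p := ⟨(Fact.out : p.Prime).ne_zero⟩
  rw [heckeU_eq_sum_zmod, add_comm]
  refine (Fintype.sum_option (fun x : OnePoint (ZMod p) => f ∣[k] repT M p hpM x)).trans ?_
  congr 1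
  · exact SlashAction.slash_mul _ _ _ _
  · refine Finset.sum_congr rfl fun b _ => ?_
    exact congrArg (fun A => f ∣[k] A) (repT_coe M p hpM b)

end T

/-! ### functions invariant under `Γ₁(M)` -/

section Inv

variable {M}

/-- for a `Γ₁(M)`-invariant function, `f ∣ g` (`g ∈ Γ₀(M)`) depends only on `Gamma0Map g`. -/
theorem slash_eq_of_Gamma0Map_eq {k : ℤ} {f : ℍ → ℂ}
    (hf : ∀ γ : Gamma1 M, f ∣[k] mapGL ℝ (γ : SL(2, ℤ)) = f) {g g' : Gamma0 M}
    (h : Gamma0Map M g = Gamma0Map M g') :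
    f ∣[k] mapGL ℝ (g : SL(2, ℤ)) = f ∣[k] mapGL ℝ (g' : SL(2, ℤ)) := by
  have h1 : ((g * g'⁻¹ : Gamma0 M) : SL(2, ℤ)) ∈ Gamma1 M := by
    rw [mem_Gamma1_iff]
    apply (Gamma0Map_isUnit M g').mul_right_cancel
    rw [← map_mul, inv_mul_cancel_right, one_mul, h]
  have h2 := hf ⟨_, h1⟩
  have h3 : (g : SL(2, ℤ)) = ((g * g'⁻¹ : Gamma0 M) : SL(2, ℤ)) * (g' : SL(2, ℤ)) := by
    rw [← Subgroup.coe_mul, inv_mul_cancel_right]
  rw [h3, map_mul, SlashAction.slash_mul, h2]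

/-- `f ∣ g` is again `Γ₁(M)`-invariant. -/
theorem slash_Gamma0_invariant {k : ℤ} {f : ℍ → ℂ}
    (hf : ∀ γ : Gamma1 M, f ∣[k] mapGL ℝ (γ : SL(2, ℤ)) = f) (g : Gamma0 M) (γ : Gamma1 M) :
    (f ∣[k] mapGL ℝ (g : SL(2, ℤ))) ∣[k] mapGL ℝ (γ : SL(2, ℤ)) = f ∣[k] mapGL ℝ (g : SL(2, ℤ)) := by
  rw [← SlashAction.slash_mul, ← map_mul]
  have := slash_eq_of_Gamma0Map_eq hf
    (g := g * Subgroup.inclusion (Gamma1_in_Gamma0 M) γ) (g' := g) (by
      rw [map_mul, (mem_Gamma1_iff M (Subgroup.inclusion (Gamma1_in_Gamma0 M) γ)).1 γ.2, mul_one])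
  exact this

end Inv

namespace Corr

variable {Γ : Subgroup SL(2, ℤ)} (C : Corr Γ)

theorem sum_slash_slash (k : ℤ) (f : ℍ → ℂ) (γ : Γ) :
    (∑ x : C.X, f ∣[k] C.rep x) ∣[k] mapGL ℝ (γ : SL(2, ℤ))
      = ∑ x : C.X, (f ∣[k] mapGL ℝ (C.c γ x : SL(2, ℤ))) ∣[k] C.rep (C.perm γ x) := by
  rw [SlashAction.sum_slash]
  refine Finset.sum_congr rfl fun x _ => ?_
  rw [← SlashAction.slash_mul, C.spec, SlashAction.slash_mul]

end Corr

/-- **`T_p` commutes with the action of `Γ₀(M)`** (in particular with the diamond operators) on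
`Γ₁(M)`-invariant functions. -/
theorem sum_slash_repT_slash [NeZero M] (p : ℕ) [Fact p.Prime] (hpM : ¬ p ∣ M) {k : ℤ} {f : ℍ → ℂ}
    (hf : ∀ γ : Gamma1 M, f ∣[k] mapGL ℝ (γ : SL(2, ℤ)) = f) (g : Gamma0 M) :
    (∑ x : OnePoint (ZMod p), f ∣[k] repT M p hpM x) ∣[k] mapGL ℝ (g : SL(2, ℤ))
      = ∑ x : OnePoint (ZMod p), (f ∣[k] mapGL ℝ (g : SL(2, ℤ))) ∣[k] repT M p hpM x := by
  refine ((T0 M p hpM).sum_slash_slash k f g).trans ?_
  have h1 : ∀ x : OnePoint (ZMod p),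
      f ∣[k] mapGL ℝ ((T0 M p hpM).c g x : SL(2, ℤ)) = f ∣[k] mapGL ℝ (g : SL(2, ℤ)) :=
    fun x => slash_eq_of_Gamma0Map_eq hf (Gamma0Map_T0_c M p hpM g x)
  calc ∑ x : OnePoint (ZMod p), (f ∣[k] mapGL ℝ ((T0 M p hpM).c g x : SL(2, ℤ)))
          ∣[k] (T0 M p hpM).rep ((T0 M p hpM).perm g x)
      = ∑ x : OnePoint (ZMod p), (f ∣[k] mapGL ℝ (g : SL(2, ℤ)))
          ∣[k] repT M p hpM ((T0 M p hpM).perm g x) :=
        Finset.sum_congr rfl fun x _ => by rw [h1 x]; rfl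
    _ = _ := Equiv.sum_comp ((T0 M p hpM).perm g)
        (fun x => (f ∣[k] mapGL ℝ (g : SL(2, ℤ))) ∣[k] repT M p hpM x)

theorem D1_rep [NeZero M] (d : (ZMod M)ˣ) (x : (D1 M d).X) :
    (D1 M d).rep x = mapGL ℝ (sig M d : SL(2, ℤ)) := rfl

theorem D1_c_coe [NeZero M] (d : (ZMod M)ˣ) (γ : Gamma1 M) (x : (D1 M d).X) :
    (((D1 M d).c γ x : Gamma1 M) : SL(2, ℤ))
      = (sig M d : SL(2, ℤ)) * (γ : SL(2, ℤ)) * (sig M d : SL(2, ℤ))⁻¹ := rfl

theorem sum_slash_D1 [NeZero M] (d : (ZMod M)ˣ) (k : ℤ) (f : ℍ → ℂ) :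
    ∑ x : (D1 M d).X, f ∣[k] (D1 M d).rep x = f ∣[k] mapGL ℝ (sig M d : SL(2, ℤ)) :=
  Fintype.sum_unique (ι := Unit) _

end Fermat.Agent.S48.Coh1
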