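import Fermat.Agent.S48.Coh1.Period
import Fermat.Agent.ES.D.Defs

/-!
# S48 / Coh1: the output for `Γ₁(M)`

* `Idx M = GoodPrime M ⊕ (ZMod M)ˣ` : the index set of the operators `T_p` (`p ∤ M`), `⟨d⟩`;
* `corrIdx M i : Corr (Gamma1 M)` : the correspondences;
* `perG1 M : PerData (Gamma1 M) (CuspForm (Gamma1 M) 2)` : the period map (injective, parabolic);
* `supp_Gamma1` : **the support property**: a noncommutative polynomial in the `T_p`, `⟨d⟩` killing
  `Hom_{par,ell}(Γ₁(M), ℤ/m)` acts on `S₂(Γ₁(M))` as `m` times an integral operator.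
-/

set_option autoImplicit false
set_option linter.unusedSectionVars false

open UpperHalfPlane ModularForm CongruenceSubgroup Filter Topology Matrix.SpecialLinearGroup
open scoped MatrixGroups ModularForm Manifold

namespace Fermat.Agent.S48.Coh1

open ModularCurve ModularCurve.Period
open Fermat.Agent.ES.D (GoodPrime)
open P2MW.S_ModularForm_heckeT_slash_eq_self_of_mem_Gamma0.ModularForm.HeckeSlashInvariance

variable (M : ℕ) [NeZero M]

theorem Gamma_le_Gamma1 : Gamma M ≤ Gamma1 M := by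
  intro γ hγ
  rw [Gamma_mem] at hγ
  rw [Gamma1_mem]
  exact ⟨hγ.1, hγ.2.2.2, hγ.2.2.1⟩

theorem T_pow_mem_Gamma : ModularGroup.T ^ M ∈ Gamma M := by
  have hT : (ModularGroup.T ^ M : SL(2, ℤ)) = ModularGroup.T ^ (M : ℤ) := by simp
  rw [hT, Gamma_mem, ModularGroup.coe_T_zpow]
  simp

theorem hasWidth_Gamma1 : HasWidth (Gamma1 M) M where
  ne_zero := NeZero.ne M
  mem δ := Gamma_le_Gamma1 M ((Gamma_normal M).conj_mem _ (T_pow_mem_Gamma M) δ)

/-- the period datum of `S₂(Γ₁(M))`. -/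
noncomputable def perG1 : PerData (Gamma1 M) (CuspForm (Gamma1 M) 2) :=
  perData (hasWidth_Gamma1 M)

/-- the index set of the operators. -/
abbrev Idx : Type := GoodPrime M ⊕ (ZMod M)ˣ

/-- the correspondences `T_p`, `⟨d⟩` on `Γ₁(M)`. -/
noncomputable def corrIdx : Idx M → Corr (Gamma1 M)
  | Sum.inl p => haveI : Fact p.1.Prime := ⟨p.2.1⟩; T1 M p.1 p.2.2
  | Sum.inr d => D1 M d

theorem det_mapGL_pos (g : SL(2, ℤ)) : 0 < (mapGL ℝ g : GL (Fin 2) ℝ).val.det := by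
  have : (mapGL ℝ g : GL (Fin 2) ℝ).val.det = 1 :=
    (Matrix.SpecialLinearGroup.map (Int.castRingHom ℝ) g).det_coe
  rw [this]
  exact one_pos

theorem det_repT_pos (p : ℕ) [Fact p.Prime] (hpM : ¬ p ∣ M) (x : OnePoint (ZMod p)) :
    0 < (repT M p hpM x).val.det := by
  rw [repT, Units.val_mul, Matrix.det_mul]
  exact mul_pos (det_mapGL_pos _) (Fermat.Agent.S16.Shimura.PeriodHecke.det_heckeRep_pos p x)

theorem det_corrIdx_pos (i : Idx M) (x : (corrIdx M i).X) : 0 < ((corrIdx M i).rep x).val.det := by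
  rcases i with p | d
  · haveI : Fact p.1.Prime := ⟨p.2.1⟩
    exact det_repT_pos M p.1 p.2.2 x
  · exact det_mapGL_pos _

/-- equivariance of the period map for `T_p`. -/
theorem perG1_T (p : ℕ) [Fact p.Prime] (hpM : ¬ p ∣ M) (f g : CuspForm (Gamma1 M) 2)
    (hg : (g : ℍ → ℂ) = ∑ x : OnePoint (ZMod p), (f : ℍ → ℂ) ∣[(2 : ℤ)] repT M p hpM x) :
    (perG1 M).per g = (T1 M p hpM).op ℂ ((perG1 M).per f) :=
  perData_corr (hasWidth_Gamma1 M) (T1 M p hpM) (det_repT_pos M p hpM) f g hg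

/-- equivariance of the period map for `⟨d⟩`. -/
theorem perG1_D (d : (ZMod M)ˣ) (f g : CuspForm (Gamma1 M) 2)
    (hg : (g : ℍ → ℂ) = (f : ℍ → ℂ) ∣[(2 : ℤ)] mapGL ℝ (sig M d : SL(2, ℤ))) :
    (perG1 M).per g = (D1 M d).op ℂ ((perG1 M).per f) :=
  perData_corr (hasWidth_Gamma1 M) (D1 M d) (fun _ => det_mapGL_pos _) f g
    (hg.trans (sum_slash_D1 M d 2 f).symm)

section Supp

variable (Top : Idx M → Module.End ℂ (CuspForm (Gamma1 M) 2))
  (hT : ∀ (p : GoodPrime M) (f : CuspForm (Gamma1 M) 2),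
    haveI : Fact p.1.Prime := ⟨p.2.1⟩
    (Top (Sum.inl p) f : ℍ → ℂ)
      = ∑ x : OnePoint (ZMod p.1), (f : ℍ → ℂ) ∣[(2 : ℤ)] repT M p.1 p.2.2 x)
  (hD : ∀ (d : (ZMod M)ˣ) (f : CuspForm (Gamma1 M) 2),
    (Top (Sum.inr d) f : ℍ → ℂ) = (f : ℍ → ℂ) ∣[(2 : ℤ)] mapGL ℝ (sig M d : SL(2, ℤ)))

include hT hD

theorem perG1_Top (i : Idx M) (f : CuspForm (Gamma1 M) 2) :
    (perG1 M).per (Top i f) = (corrIdx M i).op ℂ ((perG1 M).per f) := by
  rcases i with p | d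
  · haveI : Fact p.1.Prime := ⟨p.2.1⟩
    exact perG1_T M p.1 p.2.2 f _ (hT p f)
  · exact perG1_D M d f _ (hD d f)

/-- every polynomial in the `T_p`, `⟨d⟩` is integral over `ℤ` on `S₂(Γ₁(M))`. -/
theorem isIntegral_lift_Top (P : FreeAlgebra ℤ (Idx M)) :
    IsIntegral ℤ (FreeAlgebra.lift ℤ Top P) :=
  (perG1 M).isIntegral_lift Top (corrIdx M) (perG1_Top M Top hT hD) P

/-- **Support property for `Γ₁(M)`.** -/
theorem supp_Gamma1 (m : ℕ) (P : FreeAlgebra ℤ (Idx M))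
    (hP : FreeAlgebra.lift ℤ (fun i => (corrIdx M i).opPar ℤ (ZMod m)) P = 0) :
    ∃ Q : Module.End ℂ (CuspForm (Gamma1 M) 2), IsIntegral ℤ Q ∧
      FreeAlgebra.lift ℤ Top P = (m : ℤ) • Q :=
  (perG1 M).supp Top (corrIdx M) (perG1_Top M Top hT hD) m P hP

end Supp

end Fermat.Agent.S48.Coh1
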