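import Fermat.Agent.S48.Coh1.Main
import Fermat.Agent.S48.Coh1.Glue
import Fermat.Agent.S48.B1.ToD
import Fermat.Agent.S48.H.Hecke

/-!
# S48 / Coh1: glue `An1 + Coh1 + H ⟹ B1.SuppProp, Finite Kum, PreservesDm`

* `TW M p`, `DW M d` : the operators of part H on `S₂(Γ₁(M))` (the parameters `W, TW, DW` of `D1.ES1Module`);
* `An1Out Q H l`     : **the exact list of statements (K1)-(K7) which part An1 has to deliver**;
* `An1Out.finite_Kum`, `An1Out.preservesDm`, `An1Out.suppProp`, `An1Out.es1Module`.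
-/

set_option autoImplicit false
set_option linter.unusedSectionVars false

open UpperHalfPlane ModularForm CongruenceSubgroup Filter Topology Matrix.SpecialLinearGroup
open AlgebraicCurve
open scoped MatrixGroups ModularForm Manifold

namespace Fermat.Agent.S48.Coh1

open ModularCurve ModularCurve.Period
open Fermat.Agent.ES (Qb GQ)
open Fermat.Agent.ES.D (GoodPrime)
open Fermat.Agent.S48.B1 (QField HeckeData Dm Pw Kum)

noncomputable section

variable (M : ℕ) [NeZero M]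

/-- `T_p` on `S₂(Γ₁(M))` (part H). -/
def TW (p : GoodPrime M) : Module.End ℂ (CuspForm (Gamma1 M) 2) := H.heckeT 2 p.2.1 p.2.2

/-- `⟨d⟩` on `S₂(Γ₁(M))` (part H). -/
def DW (d : (ZMod M)ˣ) : Module.End ℂ (CuspForm (Gamma1 M) 2) := H.diamond 2 d

theorem coe_diamond_sig (k : ℤ) (d : (ZMod M)ˣ) (f : CuspForm (Gamma1 M) k) :
    (H.diamond k d f : ℍ → ℂ) = (f : ℍ → ℂ) ∣[k] mapGL ℝ (sig M d : SL(2, ℤ)) :=
  H.coe_diamond k d f ((ZMod.intCast_zmod_eq_zero_iff_dvd _ _).mp (Gamma0_mem.mp (sig M d).2))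
    (Gamma0Map_sig M d)

theorem coe_DW (d : (ZMod M)ˣ) (f : CuspForm (Gamma1 M) 2) :
    (DW M d f : ℍ → ℂ) = (f : ℍ → ℂ) ∣[(2 : ℤ)] mapGL ℝ (sig M d : SL(2, ℤ)) :=
  coe_diamond_sig M 2 d f

theorem coe_heckeT_repT (k : ℤ) (p : ℕ) [Fact p.Prime] (hpM : ¬ p ∣ M)
    (f : CuspForm (Gamma1 M) k) :
    (H.heckeT k Fact.out hpM f : ℍ → ℂ)
      = ∑ x : OnePoint (ZMod p), (f : ℍ → ℂ) ∣[k] repT M p hpM x := by
  rw [sum_slash_repT, H.coe_heckeT, coe_diamond_sig]
  rfl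

theorem coe_TW (p : GoodPrime M) (f : CuspForm (Gamma1 M) 2) :
    haveI : Fact p.1.Prime := ⟨p.2.1⟩
    (TW M p f : ℍ → ℂ)
      = ∑ x : OnePoint (ZMod p.1), (f : ℍ → ℂ) ∣[(2 : ℤ)] repT M p.1 p.2.2 x := by
  haveI : Fact p.1.Prime := ⟨p.2.1⟩
  exact coe_heckeT_repT M 2 p.1 p.2.2 f

/-- equivariance of the period map for the operators of part H. -/
theorem perG1_elim (i : Idx M) (f : CuspForm (Gamma1 M) 2) :
    (perG1 M).per (Sum.elim (TW M) (DW M) i f) = (corrIdx M i).op ℂ ((perG1 M).per f) :=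
  perG1_Top M (Sum.elim (TW M) (DW M)) (coe_TW M) (coe_DW M) i f

/-- **Support property on the cohomology side, for the operators of part H.** -/
theorem supp_H (m : ℕ) (P : FreeAlgebra ℤ (Idx M))
    (hP : FreeAlgebra.lift ℤ (fun i => (corrIdx M i).opPar ℤ (ZMod m)) P = 0) :
    ∃ Q : Module.End ℂ (CuspForm (Gamma1 M) 2), IsIntegral ℤ Q ∧
      FreeAlgebra.lift ℤ (Sum.elim (TW M) (DW M)) P = (m : ℤ) • Q :=
  supp_Gamma1 M (Sum.elim (TW M) (DW M)) (coe_TW M) (coe_DW M) m P hP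

/-- every polynomial in the `T_p`, `⟨d⟩` of part H is integral over `ℤ`; in particular all
eigenvalues are algebraic integers. -/
theorem isIntegral_lift_H (P : FreeAlgebra ℤ (Idx M)) :
    IsIntegral ℤ (FreeAlgebra.lift ℤ (Sum.elim (TW M) (DW M)) P) :=
  isIntegral_lift_Top M (Sum.elim (TW M) (DW M)) (coe_TW M) (coe_DW M) P

variable {M}

/-- **The output of part An1**: the character theory (K1)-(K7) of the Kummer classes of `Q = F1(M)`. -/
structure An1Out (Q : QField) (H : HeckeData Q M) (l : ℕ) where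
  /-- `χ` is the character of the `l`-th roots (on `ℍ`) of `f`. -/
  HasChar : Q.F → (Gamma1 M →* ℂˣ) → Prop
  /-- (K1) existence -/
  exists_hasChar : ∀ f : Q.F, f ≠ 0 → (∀ P : Place Qb Q.F, (l : ℤ) ∣ P.ord f) →
    ∃ χ, HasChar f χ ∧ χ ^ l = 1
  /-- (K1) uniqueness -/
  unique : ∀ {f : Q.F} {χ χ' : Gamma1 M →* ℂˣ}, HasChar f χ → HasChar f χ' → χ = χ'
  /-- (K2) multiplicativity -/
  mul : ∀ {f g : Q.F} {χ χ' : Gamma1 M →* ℂˣ}, HasChar f χ → HasChar g χ' →
    HasChar (f * g) (χ * χ')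
  /-- (K3) kernel -/
  one_iff : ∀ f : Q.F, f ≠ 0 → (HasChar f 1 ↔ ∃ h : Q.F, f = h ^ l)
  /-- (K4) surjectivity onto the good characters -/
  exists_of_isGood : ∀ ψ : Gamma1 M →* ℂˣ, IsGood ψ → ψ ^ l = 1 →
    ∃ f : Q.F, f ≠ 0 ∧ (∀ P : Place Qb Q.F, (l : ℤ) ∣ P.ord f) ∧ HasChar f ψ
  /-- (K5) Hecke equivariance -/
  hecke : ∀ (p : GoodPrime M) {f : Q.F} {χ : Gamma1 M →* ℂˣ}, HasChar f χ →
    HasChar (H.heckeF p f) ((corrIdx M (Sum.inl p)).opMul χ)
  /-- (K5) diamond equivariance -/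
  dia : ∀ (d : (ZMod M)ˣ) {f : Q.F} {χ : Gamma1 M →* ℂˣ}, HasChar f χ →
    HasChar (H.dia d f) ((corrIdx M (Sum.inr d)).opMul χ)

namespace An1Out

variable {Q : QField} {H : HeckeData Q M} {l : ℕ} (A : An1Out Q H l)

/-- the abstract character theory. -/
def charTheory (hl : l ≠ 0) :
    CharTheory (Gamma1 M) (Dm Qb Q.F l) ((Pw Q.F l).subgroupOf (Dm Qb Q.F l)) l where
  Has f χ := A.HasChar ((f : Q.Fˣ) : Q.F) χ
  exists_has f := A.exists_hasChar _ (Units.ne_zero _) f.2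
  unique h h' := A.unique h h'
  mul h h' := A.mul h h'
  one_iff f := by
    rw [A.one_iff _ (Units.ne_zero _), Subgroup.mem_subgroupOf, B1.mem_Pw]
    constructor
    · rintro ⟨h, hh⟩
      have h0 : h ≠ 0 := by
        rintro rfl
        rw [zero_pow hl] at hh
        exact (Units.ne_zero _) hh
      exact ⟨Units.mk0 h h0, Units.ext hh.symm⟩
    · rintro ⟨h, hh⟩
      exact ⟨h, by rw [← hh]; rfl⟩
  surj ψ hψ hψl := by
    obtain ⟨f, hf0, hfD, hf⟩ := A.exists_of_isGood ψ hψ hψl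
    exact ⟨⟨Units.mk0 f hf0, hfD⟩, hf⟩

include A in
/-- **finiteness of the Kummer group.** -/
theorem finite_Kum (hl : l ≠ 0) : Finite (Kum Qb Q.F l) := (A.charTheory hl).finite hl

theorem compat_hecke (hl : l ≠ 0) (hD : H.PreservesDm l) (p : GoodPrime M) :
    (A.charTheory hl).Compat (B1.heckeT H hD p) (corrIdx M (Sum.inl p)) := by
  intro x
  obtain ⟨f, rfl⟩ := B1.Kum.mk_surjective x
  exact congrArg Additive.ofMul ((A.charTheory hl).chrD_eq
    (f := ⟨H.heckeU p f, hD p f f.2⟩) (A.hecke p ((A.charTheory hl).chrD_spec f)))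

theorem compat_dia (hl : l ≠ 0) (d : (ZMod M)ˣ) :
    (A.charTheory hl).Compat (B1.diaRepZ H l d) (corrIdx M (Sum.inr d)) := by
  intro x
  obtain ⟨f, rfl⟩ := B1.Kum.mk_surjective x
  exact congrArg Additive.ofMul ((A.charTheory hl).chrD_eq
    (f := ⟨B1.semiU (SemilinearAut.ofAlgAut (H.dia d)) f, B1.semiU_mem_Dm _ f.2⟩)
    (A.dia d ((A.charTheory hl).chrD_spec f)))

include A in
/-- **The support property** (input of `B1.es1Module`). -/
theorem suppProp (hl : l ≠ 0) (hD : H.PreservesDm l) :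
    B1.SuppProp H hD (CuspForm (Gamma1 M) 2) (TW M) (DW M) := by
  intro P hP
  refine (A.charTheory hl).supp hl (perG1 M) (Sum.elim (TW M) (DW M)) (corrIdx M) (perG1_elim M)
    (Sum.elim (B1.heckeT H hD) (fun d => B1.diaRepZ H l d)) ?_ P hP
  rintro (p | d)
  · exact A.compat_hecke hl hD p
  · exact A.compat_dia hl d

/-- `T_p` preserves `l ∣ div`, from (K6) [the character of a class is good] and (K7) [a function
whose `l`-th roots have a good character has divisor divisible by `l`]. -/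
theorem preservesDm (A : An1Out Q H l)
    (good : ∀ f : Q.F, f ≠ 0 → (∀ P : Place Qb Q.F, (l : ℤ) ∣ P.ord f) →
      ∀ χ, A.HasChar f χ → IsGood χ)
    (divBy : ∀ f : Q.F, f ≠ 0 → ∀ χ, A.HasChar f χ → IsGood χ →
      ∀ P : Place Qb Q.F, (l : ℤ) ∣ P.ord f) : H.PreservesDm l := by
  intro p f hf
  obtain ⟨χ, hχ, -⟩ := A.exists_hasChar _ (Units.ne_zero f) hf
  exact divBy _ (Units.ne_zero (H.heckeU p f)) _ (A.hecke p hχ)
    ((good _ (Units.ne_zero f) hf χ hχ).opMul _)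

/-- **The Eichler-Shimura module of level `Γ₁(M)`**, from An1 (`A`, `hD`) and C1 (`hcrux`). -/
def es1Module (A : An1Out Q H l) (hl : l ≠ 0) (hD : H.PreservesDm l)
    (hcrux : ∀ p : ℕ, p.Prime → ¬ p ∣ M → B1.Crux1 Q p l) :
    D1.ES1Module M l (CuspForm (Gamma1 M) 2) (TW M) (DW M) :=
  B1.es1Module H hD hl hcrux (A.finite_Kum hl) _ _ _ (A.suppProp hl hD)

end An1Out

end

end Fermat.Agent.S48.Coh1
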