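import Fermat.Agent.ES.Coh.Defs

/-!
# S48 / Coh1: abstract Hecke correspondences on a subgroup `Γ ≤ SL₂(ℤ)`

A correspondence is a finite family of real matrices `rep x` (`x ∈ X`) whose left cosets
`Γ · rep x` are permuted by right multiplication by `Γ`:

  `rep x * γ = c γ x * rep (perm γ x)`,   `c γ x ∈ Γ`.

It acts
* on functions on the upper half plane: `f ↦ ∑ x, f ∣[k] rep x`  (preserving `Γ`-invariance),
* on characters `φ : Γ → A`: `(op φ)(γ) = ∑ x, φ (c γ x)`,
and the two actions are intertwined by the period map (weight 2) and by `h ↦ character of h`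
(multiplicative version, weight 0).
-/

set_option autoImplicit false
set_option linter.unusedSectionVars false

open UpperHalfPlane ModularForm CongruenceSubgroup Filter Topology Matrix.SpecialLinearGroup
open scoped MatrixGroups ModularForm Manifold

namespace Fermat.Agent.S48.Coh1

open ModularCurve ModularCurve.Period
open Fermat.Agent.ES.Coh (sum_eq_zero_of_orbit_sums trace_pow_sq mapGL_real_injective trace_mapGL)

/-- An abstract Hecke correspondence on `Γ`. -/
structure Corr (Γ : Subgroup SL(2, ℤ)) where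
  /-- the index set of the cosets -/
  X : Type
  [fin : Fintype X]
  /-- the coset representatives -/
  rep : X → GL (Fin 2) ℝ
  /-- the (right) action of `Γ` on the cosets -/
  perm : Γ → Equiv.Perm X
  /-- the cocycle -/
  c : Γ → X → Γ
  perm_mul : ∀ (γ δ : Γ) (x : X), perm (γ * δ) x = perm δ (perm γ x)
  spec : ∀ (γ : Γ) (x : X),
    rep x * mapGL ℝ (γ : SL(2, ℤ)) = mapGL ℝ (c γ x : SL(2, ℤ)) * rep (perm γ x)

attribute [instance] Corr.fin

namespace Corr

variable {Γ : Subgroup SL(2, ℤ)} (C : Corr Γ)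

theorem c_mul (γ δ : Γ) (x : C.X) : C.c (γ * δ) x = C.c γ x * C.c δ (C.perm γ x) := by
  apply Subtype.ext
  apply mapGL_real_injective
  have h1 := C.spec (γ * δ) x
  have h2 := C.spec γ x
  have h3 := C.spec δ (C.perm γ x)
  rw [Subgroup.coe_mul, C.perm_mul, map_mul, ← mul_assoc, h2, mul_assoc, h3, ← mul_assoc] at h1
  rw [Subgroup.coe_mul, map_mul]
  exact (mul_right_cancel h1).symm

theorem perm_one (x : C.X) : C.perm 1 x = x := by
  have h := C.perm_mul 1 1 x
  rw [mul_one] at h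
  exact ((C.perm 1).injective h).symm

theorem c_one (x : C.X) : C.c 1 x = 1 := by
  have h := C.c_mul 1 1 x
  rw [mul_one, C.perm_one] at h
  exact (mul_eq_left.mp h.symm)

theorem perm_pow_apply (γ : Γ) (r : ℕ) (x : C.X) : (C.perm γ ^ r) x = C.perm (γ ^ r) x := by
  induction r with
  | zero => simp [C.perm_one]
  | succ r ih => rw [pow_succ', Equiv.Perm.mul_apply, ih, pow_succ, C.perm_mul]

theorem map_c_pow {A : Type} [AddCommGroup A] (φ : Additive Γ →+ A) (γ : Γ) (r : ℕ) (x : C.X) :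
    φ (Additive.ofMul (C.c (γ ^ r) x))
      = ∑ i ∈ Finset.range r, φ (Additive.ofMul (C.c γ ((C.perm γ ^ i) x))) := by
  induction r with
  | zero => simp [C.c_one]
  | succ r ih =>
    rw [pow_succ, C.c_mul, ofMul_mul, map_add, ih, Finset.sum_range_succ, C.perm_pow_apply]

theorem mapGL_c_of_fixed (γ : Γ) (x : C.X) (hx : C.perm γ x = x) :
    mapGL ℝ (C.c γ x : SL(2, ℤ)) = C.rep x * mapGL ℝ (γ : SL(2, ℤ)) * (C.rep x)⁻¹ := by
  have h := C.spec γ x
  rw [hx] at h
  rw [h, mul_assoc, mul_inv_cancel, mul_one]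

theorem trace_c_of_fixed (γ : Γ) (x : C.X) (hx : C.perm γ x = x) :
    ((C.c γ x : SL(2, ℤ)) : Matrix (Fin 2) (Fin 2) ℤ).trace
      = ((γ : SL(2, ℤ)) : Matrix (Fin 2) (Fin 2) ℤ).trace := by
  have h := congrArg (fun M : GL (Fin 2) ℝ => (M : Matrix (Fin 2) (Fin 2) ℝ).trace)
    (C.mapGL_c_of_fixed γ x hx)
  simp only [Matrix.GeneralLinearGroup.coe_mul] at h
  have h2 := Matrix.trace_units_conj (C.rep x)
    ((mapGL ℝ (γ : SL(2, ℤ)) : GL (Fin 2) ℝ) : Matrix (Fin 2) (Fin 2) ℝ)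
  rw [h2, trace_mapGL, trace_mapGL] at h
  exact_mod_cast h

theorem c_pow_of_fixed (γ : Γ) (x : C.X) (hx : C.perm γ x = x) (n : ℕ) (hn : γ ^ n = 1) :
    C.c γ x ^ n = 1 := by
  apply Subtype.ext
  apply mapGL_real_injective
  rw [Subgroup.coe_pow, map_pow, C.mapGL_c_of_fixed γ x hx, conj_pow, ← map_pow,
    ← Subgroup.coe_pow, hn]
  simp

/-- The operator of a correspondence on additive characters of `Γ`. -/
noncomputable def op (A : Type) [AddCommGroup A] : (Additive Γ →+ A) →+ (Additive Γ →+ A) where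
  toFun φ := AddMonoidHom.mk'
    (fun γ => ∑ x : C.X, φ (Additive.ofMul (C.c γ.toMul x)))
    (fun γ δ => by
      simp only [toMul_add, C.c_mul, ofMul_mul, map_add, Finset.sum_add_distrib]
      congr 1
      exact Equiv.sum_comp (C.perm γ.toMul) (fun x => φ (Additive.ofMul (C.c δ.toMul x))))
  map_zero' := by ext γ; simp
  map_add' φ ψ := by ext γ; simp [Finset.sum_add_distrib]

theorem op_apply {A : Type} [AddCommGroup A] (φ : Additive Γ →+ A) (γ : Γ) :
    C.op A φ (Additive.ofMul γ) = ∑ x : C.X, φ (Additive.ofMul (C.c γ x)) := rfl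

/-- naturality in the coefficients. -/
theorem op_comp {A B : Type} [AddCommGroup A] [AddCommGroup B] (g : A →+ B)
    (φ : Additive Γ →+ A) : C.op B (g.comp φ) = g.comp (C.op A φ) := by
  ext γ
  simp [op]

end Corr

/-! ### parabolic + elliptic vanishing -/

/-- additive characters of `Γ` killing all parabolic elements (`tr² = 4`) and all elements of
finite order (`γ¹² = 1`). -/
def IsParEll (Γ : Subgroup SL(2, ℤ)) {A : Type} [AddCommGroup A] (φ : Additive Γ →+ A) : Prop :=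
  IsParabolicHom Γ φ ∧ ∀ γ : Γ, γ ^ 12 = 1 → φ (Additive.ofMul γ) = 0

/-- `Hom_{par,ell}(Γ, A)` as an `R`-module. -/
def homPar (Γ : Subgroup SL(2, ℤ)) (R : Type) [Semiring R] (A : Type) [AddCommGroup A]
    [Module R A] : Submodule R (Additive Γ →+ A) where
  carrier := {φ | IsParEll Γ φ}
  zero_mem' := ⟨fun _ _ => rfl, fun _ _ => rfl⟩
  add_mem' := by
    rintro φ ψ ⟨h1, h2⟩ ⟨h1', h2'⟩
    exact ⟨fun γ hγ => by rw [AddMonoidHom.add_apply, h1 γ hγ, h1' γ hγ, add_zero],
      fun γ hγ => by rw [AddMonoidHom.add_apply, h2 γ hγ, h2' γ hγ, add_zero]⟩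
  smul_mem' := by
    rintro c φ ⟨h1, h2⟩
    exact ⟨fun γ hγ => by rw [AddMonoidHom.smul_apply, h1 γ hγ, smul_zero],
      fun γ hγ => by rw [AddMonoidHom.smul_apply, h2 γ hγ, smul_zero]⟩

theorem mem_homPar {Γ : Subgroup SL(2, ℤ)} {R : Type} [Semiring R] {A : Type} [AddCommGroup A]
    [Module R A] {φ : Additive Γ →+ A} : φ ∈ homPar Γ R A ↔ IsParEll Γ φ := Iff.rfl

theorem IsParEll.comp {Γ : Subgroup SL(2, ℤ)} {A B : Type} [AddCommGroup A] [AddCommGroup B]
    (g : A →+ B) {φ : Additive Γ →+ A} (hφ : IsParEll Γ φ) : IsParEll Γ (g.comp φ) :=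
  ⟨fun γ hγ => by rw [AddMonoidHom.comp_apply, hφ.1 γ hγ, map_zero],
    fun γ hγ => by rw [AddMonoidHom.comp_apply, hφ.2 γ hγ, map_zero]⟩

theorem IsParEll.of_parabolic {Γ : Subgroup SL(2, ℤ)} {A : Type} [AddCommGroup A]
    [IsAddTorsionFree A] {φ : Additive Γ →+ A} (h : IsParabolicHom Γ φ) : IsParEll Γ φ := by
  refine ⟨h, fun γ hγ => ?_⟩
  have h1 : (12 : ℕ) • φ (Additive.ofMul γ) = 0 := by
    rw [← map_nsmul, ← ofMul_pow, hγ, ofMul_one, map_zero]
  exact (nsmul_eq_zero_iff_right (by norm_num)).1 h1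

namespace Corr

variable {Γ : Subgroup SL(2, ℤ)} (C : Corr Γ)

theorem isParabolicHom_op {A : Type} [AddCommGroup A] {φ : Additive Γ →+ A}
    (hφ : IsParabolicHom Γ φ) : IsParabolicHom Γ (C.op A φ) := by
  intro γ hγ
  rw [op_apply]
  refine sum_eq_zero_of_orbit_sums (C.perm γ) _ fun x r _ hx => ?_
  rw [← map_c_pow]
  rw [perm_pow_apply] at hx
  refine hφ _ ?_
  rw [C.trace_c_of_fixed _ x hx, Subgroup.coe_pow, Matrix.SpecialLinearGroup.coe_pow]
  exact trace_pow_sq _ (γ : SL(2, ℤ)).det_coe hγ r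

theorem isParEll_op {A : Type} [AddCommGroup A] {φ : Additive Γ →+ A}
    (hφ : IsParEll Γ φ) : IsParEll Γ (C.op A φ) := by
  refine ⟨C.isParabolicHom_op hφ.1, ?_⟩
  intro γ hγ
  rw [op_apply]
  refine sum_eq_zero_of_orbit_sums (C.perm γ) _ fun x r _ hx => ?_
  rw [← map_c_pow]
  rw [perm_pow_apply] at hx
  refine hφ.2 _ (C.c_pow_of_fixed _ x hx 12 ?_)
  rw [← pow_mul, mul_comm, pow_mul, hγ, one_pow]

/-- the operator of a correspondence as an `R`-linear endomorphism of `Hom_{par,ell}(Γ, A)`. -/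
noncomputable def opPar (R : Type) [Semiring R] (A : Type) [AddCommGroup A] [Module R A] :
    homPar Γ R A →ₗ[R] homPar Γ R A where
  toFun φ := ⟨C.op A φ.1, C.isParEll_op φ.2⟩
  map_add' φ ψ := Subtype.ext (map_add _ _ _)
  map_smul' c φ := by
    apply Subtype.ext
    ext γ
    simp [op, Finset.smul_sum]

theorem opPar_coe {R : Type} [Semiring R] {A : Type} [AddCommGroup A] [Module R A]
    (φ : homPar Γ R A) : (C.opPar R A φ : Additive Γ →+ A) = C.op A φ.1 := rfl

/-- invariance of `∑ x, f ∣[k] rep x`. -/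
theorem sum_slash_invariant (k : ℤ) (f : ℍ → ℂ)
    (hf : ∀ γ : Γ, f ∣[k] mapGL ℝ (γ : SL(2, ℤ)) = f) (γ : Γ) :
    (∑ x : C.X, f ∣[k] C.rep x) ∣[k] mapGL ℝ (γ : SL(2, ℤ)) = ∑ x : C.X, f ∣[k] C.rep x := by
  rw [SlashAction.sum_slash]
  calc ∑ x : C.X, (f ∣[k] C.rep x) ∣[k] mapGL ℝ (γ : SL(2, ℤ))
      = ∑ x : C.X, f ∣[k] C.rep (C.perm γ x) := by
        refine Finset.sum_congr rfl fun x _ => ?_
        rw [← SlashAction.slash_mul, C.spec, SlashAction.slash_mul, hf]
    _ = ∑ x : C.X, f ∣[k] C.rep x := Equiv.sum_comp (C.perm γ) (fun x => f ∣[k] C.rep x)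

end Corr

end Fermat.Agent.S48.Coh1
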