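import Fermat.Agent.S48.Coh1.Corr
import Fermat.Agent.S16.Shimura.GroupLift

/-!
# S48 / Coh1: the lattice `Hom_{par,ell}(Γ, ℤ)`, a dual family of group elements, coordinates and the
integral matrix of a correspondence (`Γ ≤ SL₂(ℤ)` of finite index).
-/

set_option autoImplicit false
set_option linter.unusedSectionVars false

open UpperHalfPlane ModularForm CongruenceSubgroup Filter Topology Matrix.SpecialLinearGroup
open scoped MatrixGroups ModularForm Manifold

namespace Fermat.Agent.S48.Coh1

open ModularCurve ModularCurve.Period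

namespace Latt

variable (Γ : Subgroup SL(2, ℤ))

/-- the relations: images of parabolic and of finite order elements. -/
def relSet : Set (Additive (Abelianization Γ)) :=
  {x | ∃ γ : Γ, ((((γ : SL(2, ℤ)) : Matrix (Fin 2) (Fin 2) ℤ).trace ^ 2 = 4) ∨ γ ^ 12 = 1) ∧
    x = Additive.ofMul (Abelianization.of γ)}

/-- the universal quotient `H₁(X(Γ), ℤ)`. -/
abbrev HH : Type := Additive (Abelianization Γ) ⧸ AddSubgroup.closure (relSet Γ)

/-- the projection. -/
def proj : Additive Γ →+ HH Γ :=
  (QuotientAddGroup.mk' (AddSubgroup.closure (relSet Γ))).comp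
    (MonoidHom.toAdditive (Abelianization.of (G := Γ)))

theorem proj_surjective : Function.Surjective (proj Γ) := by
  intro x
  obtain ⟨y, rfl⟩ := QuotientAddGroup.mk'_surjective _ x
  obtain ⟨γ, hγ⟩ := QuotientGroup.mk'_surjective (commutator Γ) y.toMul
  exact ⟨Additive.ofMul γ, by
    show QuotientAddGroup.mk' _ (Additive.ofMul (Abelianization.of γ)) = _
    congr 1⟩

theorem isParEll_comp_proj {K : Type} [AddCommGroup K] (f : HH Γ →+ K) :
    IsParEll Γ (f.comp (proj Γ)) := by
  have key : ∀ γ : Γ,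
      ((((γ : SL(2, ℤ)) : Matrix (Fin 2) (Fin 2) ℤ).trace ^ 2 = 4) ∨ γ ^ 12 = 1) →
      proj Γ (Additive.ofMul γ) = 0 := by
    intro γ hγ
    show QuotientAddGroup.mk' _ (Additive.ofMul (Abelianization.of γ)) = 0
    rw [QuotientAddGroup.mk'_apply, QuotientAddGroup.eq_zero_iff]
    exact AddSubgroup.subset_closure ⟨γ, hγ, rfl⟩
  exact ⟨fun γ hγ => by rw [AddMonoidHom.comp_apply, key γ (Or.inl hγ), map_zero],
    fun γ hγ => by rw [AddMonoidHom.comp_apply, key γ (Or.inr hγ), map_zero]⟩

/-- descend an `IsParEll` homomorphism. -/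
def desc {K : Type} [AddCommGroup K] (φ : Additive Γ →+ K) (hφ : IsParEll Γ φ) :
    HH Γ →+ K :=
  QuotientAddGroup.lift _
    (MonoidHom.toAdditiveLeft (Abelianization.lift (AddMonoidHom.toMultiplicativeRight φ)))
    (by
      rw [AddSubgroup.closure_le]
      rintro x ⟨γ, hγ, rfl⟩
      show φ (Additive.ofMul γ) = 0
      rcases hγ with hγ | hγ
      · exact hφ.1 γ hγ
      · exact hφ.2 γ hγ)

theorem desc_comp_proj {K : Type} [AddCommGroup K] (φ : Additive Γ →+ K)
    (hφ : IsParEll Γ φ) : (desc Γ φ hφ).comp (proj Γ) = φ := by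
  ext γ
  rfl

instance [Γ.FiniteIndex] : AddGroup.FG (HH Γ) := by
  have h1 : Group.FG Γ := inferInstance
  have h2 : AddGroup.FG (Additive Γ) := GroupFG.iff_add_fg.1 h1
  exact AddGroup.fg_of_surjective (proj_surjective Γ)

end Latt

open Latt in
/-- **Structure of the lattice.**  There are `ℤ`-valued characters `lam i` killing parabolic and
elliptic elements and group elements `gam j` with `lam i (gam j) = δ_{ij}` such that every
`IsParEll` character with values in a torsion free group is `∑ i, lam i (·) • φ (gam i)`. -/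
theorem exists_dual_family (Γ : Subgroup SL(2, ℤ)) [Γ.FiniteIndex] :
    ∃ (r : ℕ) (lam : Fin r → Additive Γ →+ ℤ) (gam : Fin r → Γ),
      (∀ i, IsParEll Γ (lam i)) ∧
      (∀ i j, lam i (Additive.ofMul (gam j)) = if i = j then 1 else 0) ∧
      ∀ (A : Type) [AddCommGroup A] [IsAddTorsionFree A] (φ : Additive Γ →+ A),
        IsParEll Γ φ → ∀ g, φ g = ∑ i, lam i g • φ (Additive.ofMul (gam i)) := by
  classical
  obtain ⟨r, ι, _, p, hp, e, ⟨E⟩⟩ := AddCommGroup.equiv_free_prod_directSum_zmod (HH Γ)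
  have : ∀ i, NeZero (p i ^ e i) := fun i => ⟨pow_ne_zero _ (hp i).ne_zero⟩
  have hF : Finite (DirectSum ι fun i => ZMod (p i ^ e i)) :=
    Finite.of_equiv _ (DirectSum.addEquivProd (fun i => ZMod (p i ^ e i))).symm.toEquiv
  choose gam hgam using fun j : Fin r =>
    proj_surjective Γ (E.symm (Finsupp.single j 1, 0))
  set co : Fin r → HH Γ →+ ℤ := fun i =>
    ((Finsupp.applyAddHom i).comp (AddMonoidHom.fst _ _)).comp E.toAddMonoidHom with hco
  refine ⟨r, fun i => (co i).comp (proj Γ), fun j => (gam j).toMul,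
    fun i => isParEll_comp_proj Γ _, fun i j => ?_, ?_⟩
  · rw [ofMul_toMul, AddMonoidHom.comp_apply, hgam]
    simp [hco, Finsupp.single_apply, eq_comm]
  · intro A _ _ φ hφ g
    set ψ := desc Γ φ hφ with hψ
    have h1 : ∀ g, φ g = ψ (proj Γ g) := fun g =>
      (DFunLike.congr_fun (desc_comp_proj Γ φ hφ) g).symm
    simp only [ofMul_toMul, h1, hgam, AddMonoidHom.comp_apply]
    generalize proj Γ g = x
    obtain ⟨⟨v, t⟩, rfl⟩ := E.symm.surjective x
    have h2 : ψ (E.symm (0, t)) = 0 := by
      have h3 : Nat.card (DirectSum ι fun i => ZMod (p i ^ e i)) • t = 0 := card_nsmul_eq_zero'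
      have h4 : Nat.card (DirectSum ι fun i => ZMod (p i ^ e i)) • ψ (E.symm (0, t)) = 0 := by
        rw [← map_nsmul, ← map_nsmul, Prod.smul_mk, h3, smul_zero]
        exact (congrArg ψ (map_zero E.symm)).trans (map_zero ψ)
      exact (nsmul_eq_zero_iff_right Nat.card_pos.ne').1 h4
    have h5 : ((v, t) : (Fin r →₀ ℤ) × DirectSum ι fun i => ZMod (p i ^ e i))
        = (∑ i, v i • ((Finsupp.single i 1, 0) :
            (Fin r →₀ ℤ) × DirectSum ι fun i => ZMod (p i ^ e i))) + (0, t) := by
      refine Prod.ext ?_ ?_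
      · simp only [Prod.fst_add, Prod.fst_sum, Prod.smul_fst, add_zero]
        ext j
        simp
      · simp [Prod.snd_sum]
    have h6 : ∀ i, co i (E.symm (v, t)) = v i := fun i => by simp [hco]
    simp only [h6]
    conv_lhs => rw [h5, map_add, map_add, h2, add_zero, map_sum, map_sum]
    refine Finset.sum_congr rfl fun i _ => ?_
    rw [map_zsmul, map_zsmul]

/-! ### coordinates -/

variable (Γ : Subgroup SL(2, ℤ)) [Γ.FiniteIndex]

/-- the rank of the lattice `Hom_{par,ell}(Γ, ℤ)`. -/
noncomputable def rk : ℕ := (exists_dual_family Γ).choose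

/-- a basis of the lattice `Hom_{par,ell}(Γ, ℤ)`. -/
noncomputable def lam : Fin (rk Γ) → Additive Γ →+ ℤ :=
  (exists_dual_family Γ).choose_spec.choose

/-- group elements dual to `lam`. -/
noncomputable def gam : Fin (rk Γ) → Γ :=
  (exists_dual_family Γ).choose_spec.choose_spec.choose

theorem lam_isParEll (i : Fin (rk Γ)) : IsParEll Γ (lam Γ i) :=
  (exists_dual_family Γ).choose_spec.choose_spec.choose_spec.1 i

theorem lam_gam (i j : Fin (rk Γ)) :
    lam Γ i (Additive.ofMul (gam Γ j)) = if i = j then 1 else 0 :=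
  (exists_dual_family Γ).choose_spec.choose_spec.choose_spec.2.1 i j

theorem expand {A : Type} [AddCommGroup A] [IsAddTorsionFree A] (φ : Additive Γ →+ A)
    (hφ : IsParEll Γ φ) (g : Additive Γ) :
    φ g = ∑ i, lam Γ i g • φ (Additive.ofMul (gam Γ i)) :=
  (exists_dual_family Γ).choose_spec.choose_spec.choose_spec.2.2 A φ hφ g

/-- the character `∑ cᵢ λᵢ` with coefficients in a ring `K`. -/
noncomputable def comb (K : Type) [CommRing K] (c : Fin (rk Γ) → K) : Additive Γ →+ K :=
  ∑ i, (AddMonoidHom.mulLeft (c i)).comp ((Int.castAddHom K).comp (lam Γ i))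

theorem comb_apply {K : Type} [CommRing K] (c : Fin (rk Γ) → K) (g : Additive Γ) :
    comb Γ K c g = ∑ i, c i * (lam Γ i g : K) := by
  simp [comb]

theorem comb_gam {K : Type} [CommRing K] (c : Fin (rk Γ) → K) (j : Fin (rk Γ)) :
    comb Γ K c (Additive.ofMul (gam Γ j)) = c j := by
  classical
  rw [comb_apply]
  simp [lam_gam]

theorem comb_injective {K : Type} [CommRing K] : Function.Injective (comb Γ K) := by
  intro c c' h
  funext j
  rw [← comb_gam Γ c j, h, comb_gam]

theorem isParEll_comb {K : Type} [CommRing K] (c : Fin (rk Γ) → K) : IsParEll Γ (comb Γ K c) := by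
  constructor
  · intro γ hγ
    rw [comb_apply]
    exact Finset.sum_eq_zero fun i _ => by rw [(lam_isParEll Γ i).1 γ hγ]; simp
  · intro γ hγ
    rw [comb_apply]
    exact Finset.sum_eq_zero fun i _ => by rw [(lam_isParEll Γ i).2 γ hγ]; simp

theorem comb_smul {K : Type} [CommRing K] (a : K) (c : Fin (rk Γ) → K) :
    comb Γ K (a • c) = a • comb Γ K c := by
  refine AddMonoidHom.ext fun g => ?_
  simp [comb_apply, Finset.mul_sum, mul_assoc]

/-- characters with values in a torsion free ring are combinations of the `lam i`. -/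
theorem eq_comb {K : Type} [CommRing K] [IsAddTorsionFree K] (φ : Additive Γ →+ K)
    (hφ : IsParEll Γ φ) : φ = comb Γ K fun i => φ (Additive.ofMul (gam Γ i)) := by
  refine AddMonoidHom.ext fun g => ?_
  rw [expand Γ φ hφ g, comb_apply]
  exact Finset.sum_congr rfl fun i _ => by rw [zsmul_eq_mul, mul_comm]

namespace Corr

variable {Γ} (C : Corr Γ)

/-- the integral matrix of a correspondence : `C λᵢ = ∑ⱼ Mᵢⱼ λⱼ`. -/
noncomputable def mat : Matrix (Fin (rk Γ)) (Fin (rk Γ)) ℤ :=
  Matrix.of fun i j => C.op ℤ (lam Γ i) (Additive.ofMul (gam Γ j))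

theorem op_lam (i : Fin (rk Γ)) (g : Additive Γ) :
    C.op ℤ (lam Γ i) g = ∑ j, C.mat i j * lam Γ j g := by
  rw [expand Γ _ (C.isParEll_op (lam_isParEll Γ i)) g]
  exact Finset.sum_congr rfl fun j _ => by rw [smul_eq_mul, mul_comm]; rfl

theorem op_comb {K : Type} [CommRing K] (c : Fin (rk Γ) → K) :
    C.op K (comb Γ K c) = comb Γ K fun j => ∑ i, c i * (C.mat i j : K) := by
  refine AddMonoidHom.ext fun g => ?_
  rw [comb, map_sum, AddMonoidHom.finsetSum_apply, comb_apply]
  simp only [op_comp, AddMonoidHom.comp_apply, op_lam, AddMonoidHom.coe_mulLeft,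
    Int.coe_castAddHom, Int.cast_sum, Int.cast_mul, Finset.mul_sum, Finset.sum_mul]
  rw [Finset.sum_comm]
  exact Finset.sum_congr rfl fun j _ => Finset.sum_congr rfl fun i _ => by ring

end Corr

end Fermat.Agent.S48.Coh1
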