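import Fermat.Agent.S48.Coh1.Supp
import Fermat.Agent.S48.Coh1.Gamma1

/-!
# S48 / Coh1: the period map of weight two forms on a subgroup `Γ ≤ SL₂(ℤ)` of finite index

`Γ` is assumed to contain all conjugates of `T ^ N` (e.g. `Γ(N) ≤ Γ`).  Port of `S21/PeriodMap`,
`S21/MaxPrinciple` (injectivity, holomorphic part only) and `S16/Shimura/PeriodHecke`.
-/

set_option autoImplicit false
set_option linter.unusedSectionVars false

open UpperHalfPlane ModularForm CongruenceSubgroup Filter Topology Matrix.SpecialLinearGroup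
open scoped MatrixGroups ModularForm Manifold

namespace Fermat.Agent.S48.Coh1

open ModularCurve ModularCurve.Period Fermat.Agent.S21 Fermat.Agent.S21.PeriodMapAux
open Fermat.Agent.S16.Shimura.PeriodHecke (isPrim_comp_GL isPrim_sum)

/-- `Γ` contains all conjugates of `T ^ N`, `N ≠ 0`. -/
structure HasWidth (Γ : Subgroup SL(2, ℤ)) (N : ℕ) : Prop where
  ne_zero : N ≠ 0
  mem : ∀ δ : SL(2, ℤ), δ * ModularGroup.T ^ N * δ⁻¹ ∈ Γ

variable {Γ : Subgroup SL(2, ℤ)} {N : ℕ} (hΓ : HasWidth Γ N)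

include hΓ

theorem HasWidth.pos : (0 : ℝ) < (N : ℝ) := by exact_mod_cast Nat.pos_of_ne_zero hΓ.ne_zero

/-- every translate of a form on `Γ` is `N`-periodic -/
theorem slash_periodic' {k : ℤ} {f : ℍ → ℂ} (hf : ∀ γ ∈ Γ, f ∣[k] γ = f) (δ : SL(2, ℤ)) :
    Function.Periodic ((f ∣[k] δ) ∘ ofComplex) (N : ℝ) := by
  have h1 : (f ∣[k] δ) ∣[k] (ModularGroup.T ^ (N : ℤ)) = f ∣[k] δ := by
    have := hf _ (hΓ.mem δ)
    rw [SlashAction.slash_mul, SlashAction.slash_mul] at this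
    have h2 := congrArg (fun F => F ∣[k] δ) this
    simp only [← SlashAction.slash_mul] at h2
    rw [← SlashAction.slash_mul]
    simpa [mul_assoc] using h2
  intro z
  simp only [Function.comp_apply]
  by_cases hz : 0 < z.im
  · have hz' : 0 < (z + (N : ℝ)).im := by simpa using hz
    rw [ofComplex_apply_of_im_pos hz, ofComplex_apply_of_im_pos hz']
    have h3 := congrFun h1 ⟨z, hz⟩
    rw [SL_slash_apply, modular_T_zpow_smul] at h3
    have hd : denom ((ModularGroup.T ^ (N : ℤ) : SL(2, ℤ)) : GL (Fin 2) ℝ) (⟨z, hz⟩ : ℍ) = 1 := by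
      rw [ModularGroup.denom_apply, ModularGroup.coe_T_zpow]
      simp
    rw [hd] at h3
    simp only [one_zpow, mul_one] at h3
    rw [← h3]
    refine congrArg _ (UpperHalfPlane.ext ?_)
    simp [add_comm]
  · have hz' : ¬ 0 < (z + (N : ℝ)).im := by simpa using hz
    rw [ofComplex_apply_of_im_nonpos (not_lt.mp hz), ofComplex_apply_of_im_nonpos (not_lt.mp hz')]

/-- every translate of a weight `2` form on `Γ` has a normalised primitive -/
theorem exists_prim_slash' {f : ℍ → ℂ} (hf : f ∈ MF Γ 2) (δ : SL(2, ℤ)) :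
    ∃ G : ℍ → ℂ, IsPrim G (f ∣[(2 : ℤ)] δ) ∧
      Tendsto (fun τ : ℍ => G τ - valueAtInfty (f ∣[(2 : ℤ)] δ) * τ) atImInfty (𝓝 0) := by
  obtain ⟨G, hG, hG2, -⟩ := exists_prim_of_periodic hΓ.pos (slash_periodic' hΓ hf.2.1 δ)
    (mdiff_slash hf.1 2 δ) (hf.2.2 δ)
  exact ⟨G, hG, hG2⟩

theorem exists_prim' {f : ℍ → ℂ} (hf : f ∈ MF Γ 2) : ∃ F, IsPrim F f := by
  obtain ⟨G, hG, -⟩ := exists_prim_slash' hΓ hf 1
  rw [SlashAction.slash_one] at hG
  exact ⟨G, hG⟩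

/-- a chosen primitive -/
noncomputable def chosenPrim (f : MF Γ 2) : ℍ → ℂ := (exists_prim' hΓ f.2).choose

theorem chosenPrim_isPrim (f : MF Γ 2) : IsPrim (chosenPrim hΓ f) f :=
  (exists_prim' hΓ f.2).choose_spec

/-- the period homomorphism of a single form -/
noncomputable def perHomAux (f : MF Γ 2) : Additive Γ →+ ℂ where
  toFun γ := chosenPrim hΓ f (((Additive.toMul γ : Γ) : SL(2, ℤ)) • UpperHalfPlane.I)
    - chosenPrim hΓ f UpperHalfPlane.I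
  map_zero' := by simp
  map_add' γ δ := by
    have h := prim_smul_sub f.2.2.1 (chosenPrim_isPrim hΓ f)
      ((Additive.toMul γ : Γ) : SL(2, ℤ)) (Additive.toMul γ).2
      (((Additive.toMul δ : Γ) : SL(2, ℤ)) • UpperHalfPlane.I) UpperHalfPlane.I
    have hsmul : ((Additive.toMul (γ + δ) : Γ) : SL(2, ℤ)) • UpperHalfPlane.I
        = ((Additive.toMul γ : Γ) : SL(2, ℤ)) •
          (((Additive.toMul δ : Γ) : SL(2, ℤ)) • UpperHalfPlane.I) := by
      rw [← mul_smul]; rfl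
    rw [hsmul]
    linear_combination h

theorem perHomAux_apply (f : MF Γ 2) {F : ℍ → ℂ} (hF : IsPrim F f) (γ : Γ)
    (z : ℍ) : perHomAux hΓ f (Additive.ofMul γ) = F ((γ : SL(2, ℤ)) • z) - F z := by
  rw [prim_smul_sub f.2.2.1 hF (γ : SL(2, ℤ)) γ.2 z UpperHalfPlane.I]
  exact prim_sub_eq (chosenPrim_isPrim hΓ f) hF _ _

/-- The period homomorphism, linear in the form. -/
noncomputable def perHom : MF Γ 2 →ₗ[ℂ] (Additive Γ →+ ℂ) where
  toFun := perHomAux hΓ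
  map_add' f g := by
    refine AddMonoidHom.ext fun γ => ?_
    have h : IsPrim (chosenPrim hΓ f + chosenPrim hΓ g) ((f + g : MF Γ 2) : ℍ → ℂ) :=
      (chosenPrim_isPrim hΓ f).add (chosenPrim_isPrim hΓ g)
    have h1 := perHomAux_apply hΓ (f + g) h (Additive.toMul γ) UpperHalfPlane.I
    have h2 := perHomAux_apply hΓ f (chosenPrim_isPrim hΓ f) (Additive.toMul γ) UpperHalfPlane.I
    have h3 := perHomAux_apply hΓ g (chosenPrim_isPrim hΓ g) (Additive.toMul γ) UpperHalfPlane.I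
    simp only [ofMul_toMul] at h1 h2 h3
    rw [AddMonoidHom.add_apply, h1, h2, h3]
    simp only [Pi.add_apply]
    ring
  map_smul' c f := by
    refine AddMonoidHom.ext fun γ => ?_
    have h : IsPrim (c • chosenPrim hΓ f) ((c • f : MF Γ 2) : ℍ → ℂ) :=
      (chosenPrim_isPrim hΓ f).smul c
    have h1 := perHomAux_apply hΓ (c • f) h (Additive.toMul γ) UpperHalfPlane.I
    have h2 := perHomAux_apply hΓ f (chosenPrim_isPrim hΓ f) (Additive.toMul γ) UpperHalfPlane.I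
    simp only [ofMul_toMul] at h1 h2
    rw [RingHom.id_apply, AddMonoidHom.smul_apply, h1, h2]
    simp only [Pi.smul_apply, smul_eq_mul]
    ring

theorem perHom_apply (f : MF Γ 2) {F : ℍ → ℂ} (hF : IsPrim F f) (γ : Γ) (z : ℍ) :
    perHom hΓ f (Additive.ofMul γ) = F ((γ : SL(2, ℤ)) • z) - F z :=
  perHomAux_apply hΓ f hF γ z

/-- increment of a primitive of `f ∣ δ` under `T ^ m` -/
theorem prim_T_zpow' {f : ℍ → ℂ} (hf : f ∈ MF Γ 2) (δ : SL(2, ℤ)) (m : ℤ)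
    (h : f ∣[(2 : ℤ)] (δ * ModularGroup.T ^ m * δ⁻¹) = f) {G : ℍ → ℂ}
    (hG : IsPrim G (f ∣[(2 : ℤ)] δ)) (w : ℍ) :
    G (ModularGroup.T ^ m • w) - G w = m * valueAtInfty (f ∣[(2 : ℤ)] δ) := by
  obtain ⟨G', hG', hlim⟩ := exists_prim_slash' hΓ hf δ
  rw [prim_sub_eq hG hG']
  set a := valueAtInfty (f ∣[(2 : ℤ)] δ) with ha
  have hsl : (f ∣[(2 : ℤ)] δ) ∣[(2 : ℤ)] (ModularGroup.T ^ m) = f ∣[(2 : ℤ)] δ := by
    have h1 : δ * ModularGroup.T ^ m = (δ * ModularGroup.T ^ m * δ⁻¹) * δ := by group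
    rw [← SlashAction.slash_mul, h1, SlashAction.slash_mul, h]
  have h1 : IsPrim (fun τ => G' (ModularGroup.T ^ m • τ)) (f ∣[(2 : ℤ)] δ) := by
    have := hG'.comp_smul (ModularGroup.T ^ m)
    rwa [hsl] at this
  obtain ⟨c, hc⟩ := h1.eq_add_const hG'
  have hc' : ∀ τ : ℍ, G' ((m : ℝ) +ᵥ τ) = G' τ + c := by
    intro τ
    rw [← modular_T_zpow_smul]
    exact hc τ
  have hlim2 : Tendsto (fun τ : ℍ => G' ((m : ℝ) +ᵥ τ) - a * (((m : ℝ) +ᵥ τ : ℍ) : ℂ)) atImInfty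
      (𝓝 0) := hlim.comp (tendsto_vadd_atImInfty (m : ℝ))
  have hlim3 := hlim2.sub hlim
  have hfun : (fun τ : ℍ => (G' ((m : ℝ) +ᵥ τ) - a * (((m : ℝ) +ᵥ τ : ℍ) : ℂ)) -
      (G' τ - a * (τ : ℂ))) = fun _ => c - a * m := by
    funext τ
    rw [hc' τ, coe_vadd]
    push_cast
    ring
  rw [hfun, sub_zero] at hlim3
  have hcm : c - a * m = 0 := tendsto_nhds_unique tendsto_const_nhds hlim3
  have hw : G' (ModularGroup.T ^ m • w) = G' w + c := hc w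
  rw [hw]
  linear_combination hcm

omit hΓ in
theorem slash_two_neg (f : ℍ → ℂ) (g : SL(2, ℤ)) : f ∣[(2 : ℤ)] (-g) = f ∣[(2 : ℤ)] g := by
  ext τ
  rw [SL_slash_apply, SL_slash_apply, ModularGroup.SL_neg_smul]
  congr 1
  rw [ModularGroup.denom_apply, ModularGroup.denom_apply]
  simp only [Matrix.SpecialLinearGroup.coe_neg, Matrix.neg_apply, Int.cast_neg]
  rw [show (-((g 1 0 : ℤ) : ℂ) * (τ : ℂ) + -((g 1 1 : ℤ) : ℂ))
    = -(((g 1 0 : ℤ) : ℂ) * (τ : ℂ) + ((g 1 1 : ℤ) : ℂ)) by ring]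
  exact Even.neg_zpow (by decide) _

/-- value of the period hom on parabolic elements -/
theorem perHom_parabolic' (f : MF Γ 2) (δ : SL(2, ℤ)) (m : ℤ) (γ : Γ)
    (hγ : (γ : SL(2, ℤ)) = δ * ModularGroup.T ^ m * δ⁻¹ ∨
      (γ : SL(2, ℤ)) = -(δ * ModularGroup.T ^ m * δ⁻¹)) :
    perHom hΓ f (Additive.ofMul γ) = m * valueAtInfty ((f : ℍ → ℂ) ∣[(2 : ℤ)] δ) := by
  obtain ⟨F, hF⟩ := exists_prim' hΓ f.2
  have hmem : (f : ℍ → ℂ) ∣[(2 : ℤ)] (δ * ModularGroup.T ^ m * δ⁻¹) = f := by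
    rcases hγ with h | h
    · rw [← h]; exact f.2.2.1 _ γ.2
    · rw [← slash_two_neg, ← h]; exact f.2.2.1 _ γ.2
  have hact : ∀ z : ℍ, (γ : SL(2, ℤ)) • z = (δ * ModularGroup.T ^ m * δ⁻¹) • z := by
    intro z
    rcases hγ with h | h
    · rw [h]
    · rw [h, ModularGroup.SL_neg_smul]
  have hG : IsPrim (fun τ => F (δ • τ)) ((f : ℍ → ℂ) ∣[(2 : ℤ)] δ) := hF.comp_smul δ
  have key := prim_T_zpow' hΓ f.2 δ m hmem hG UpperHalfPlane.I
  rw [perHom_apply hΓ f hF γ (δ • UpperHalfPlane.I), hact, ← key]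
  simp only [mul_smul, inv_smul_smul]

theorem isParabolicHom_perHom (f : MF Γ 2) (hf : (f : ℍ → ℂ) ∈ CF Γ 2) :
    IsParabolicHom Γ (perHom hΓ f) := by
  intro γ hγ
  obtain ⟨δ, m, h⟩ := exists_conj_T_zpow (γ : SL(2, ℤ)) hγ
  rw [perHom_parabolic' hΓ f δ m γ h, (hf.2.2 δ).valueAtInfty_eq_zero, mul_zero]

/-- behaviour at the cusps of a primitive of a cusp form -/
theorem prim_cusp_behaviour' {u U : ℍ → ℂ} (hu : u ∈ CF Γ 2) (hU : IsPrim U u) (δ : SL(2, ℤ)) :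
    (∃ L : ℂ, Tendsto (fun z : ℍ => U (δ • z)) atImInfty (𝓝 L)) ∧
      ∀ z : ℍ, U (δ • ((N : ℝ) +ᵥ z)) = U (δ • z) := by
  obtain ⟨hu1, hu2, hu3⟩ := hu
  obtain ⟨F, hF, hFlim, hFper⟩ := exists_prim_of_periodic hΓ.pos (slash_periodic' hΓ hu2 δ)
    (mdiff_slash hu1 2 δ) (hu3 δ).isBoundedAtImInfty
  have hval : valueAtInfty (u ∣[(2 : ℤ)] δ) = 0 := (hu3 δ).valueAtInfty_eq_zero
  obtain ⟨c, hc⟩ := (hU.comp_smul δ).eq_add_const hF
  simp only [hval, zero_mul, sub_zero, add_zero] at hFlim hFper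
  refine ⟨⟨c, ?_⟩, fun z => ?_⟩
  · have h1 : Tendsto (fun z => F z + c) atImInfty (𝓝 (0 + c)) := hFlim.add_const c
    rw [zero_add] at h1
    exact h1.congr fun z => (hc z).symm
  · rw [hc, hc, hFper]

/-- the period map is injective on cusp forms. -/
theorem eq_zero_of_perHom_eq_zero [Γ.FiniteIndex] (u : MF Γ 2) (hu : (u : ℍ → ℂ) ∈ CF Γ 2)
    (h : perHom hΓ u = 0) : u = 0 := by
  obtain ⟨U, hU⟩ := exists_prim' hΓ u.2
  have hUc := prim_cusp_behaviour' hΓ hu hU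
  have hUt : ∀ (γ : Γ) (z : ℍ), U ((γ : SL(2, ℤ)) • z) = U z := by
    intro γ z
    have := perHom_apply hΓ u hU γ z
    rw [h, AddMonoidHom.zero_apply] at this
    linear_combination -this
  obtain ⟨c, hc⟩ : ∃ c : ℂ, ∀ z, U z = c := by
    refine const_of_re_invariant (Γ := Γ) hU.mdiff ?_ hΓ.pos ?_ ?_
    · intro γ hγ z
      rw [hUt ⟨γ, hγ⟩ z]
    · intro δ z
      exact (hUc δ).2 z
    · intro δ
      exact (hUc δ).1
  exact Subtype.ext (funext (MaxPrinciple.eq_zero_of_isPrim_const hU hc))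

/-- **Equivariance of the period map** under a correspondence. -/
theorem perHom_corr (C : Corr Γ) (hC : ∀ x, 0 < (C.rep x).val.det) (f g : MF Γ 2)
    (hg : (g : ℍ → ℂ) = ∑ x, (f : ℍ → ℂ) ∣[(2 : ℤ)] C.rep x) :
    perHom hΓ g = C.op ℂ (perHom hΓ f) := by
  refine AddMonoidHom.ext fun γ' => ?_
  obtain ⟨γ, rfl⟩ : ∃ γ : Γ, Additive.ofMul γ = γ' := ⟨γ'.toMul, rfl⟩
  rw [Corr.op_apply]
  have hF := chosenPrim_isPrim hΓ f
  set F := chosenPrim hΓ f with hFdef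
  have hG : IsPrim (∑ x, fun τ => F (C.rep x • τ)) (g : ℍ → ℂ) := by
    rw [hg]
    exact isPrim_sum Finset.univ _ _ fun x => isPrim_comp_GL hF (C.rep x) (hC x)
  rw [perHom_apply hΓ g hG γ UpperHalfPlane.I]
  simp only [Finset.sum_apply]
  rw [← Equiv.sum_comp (C.perm γ) (fun x => F (C.rep x • UpperHalfPlane.I)),
    ← Finset.sum_sub_distrib]
  refine Finset.sum_congr rfl fun x _ => ?_
  rw [perHom_apply hΓ f hF (C.c γ x) (C.rep (C.perm γ x) • UpperHalfPlane.I)]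
  congr 2
  have h1 : (γ : SL(2, ℤ)) • UpperHalfPlane.I = mapGL ℝ (γ : SL(2, ℤ)) • UpperHalfPlane.I := rfl
  have h2 : ((C.c γ x : Γ) : SL(2, ℤ)) • (C.rep (C.perm γ x) • UpperHalfPlane.I)
      = mapGL ℝ ((C.c γ x : Γ) : SL(2, ℤ)) • (C.rep (C.perm γ x) • UpperHalfPlane.I) := rfl
  rw [h1, h2, ← mul_smul, ← mul_smul, C.spec γ x]

/-! ### bundled cusp forms -/

omit hΓ in
theorem coe_cuspForm_mem_CF' [Γ.FiniteIndex] (f : CuspForm (Γ : Subgroup (GL (Fin 2) ℝ)) 2) :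
    (f : ℍ → ℂ) ∈ CF Γ 2 :=
  mem_CF_iff_exists.2 ⟨f, rfl⟩

omit hΓ in
/-- inclusion of bundled cusp forms into `MF`. -/
noncomputable def cuspIncl' (Γ : Subgroup SL(2, ℤ)) [Γ.FiniteIndex] :
    CuspForm (Γ : Subgroup (GL (Fin 2) ℝ)) 2 →ₗ[ℂ] MF Γ 2 where
  toFun f := ⟨f, CF_le_MF _ _ (coe_cuspForm_mem_CF' f)⟩
  map_add' _ _ := rfl
  map_smul' _ _ := rfl

/-- **The period datum of `S₂(Γ)`.** -/
noncomputable def perData [Γ.FiniteIndex] :
    PerData Γ (CuspForm (Γ : Subgroup (GL (Fin 2) ℝ)) 2) where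
  per := perHom hΓ ∘ₗ cuspIncl' Γ
  inj := by
    rw [← LinearMap.ker_eq_bot, LinearMap.ker_eq_bot']
    intro f hf
    have h := eq_zero_of_perHom_eq_zero hΓ (cuspIncl' Γ f) (coe_cuspForm_mem_CF' f) hf
    have : (f : ℍ → ℂ) = 0 := congrArg Subtype.val h
    exact DFunLike.coe_injective this
  par f := isParabolicHom_perHom hΓ _ (coe_cuspForm_mem_CF' f)

theorem perData_corr [Γ.FiniteIndex] (C : Corr Γ) (hC : ∀ x, 0 < (C.rep x).val.det)
    (f g : CuspForm (Γ : Subgroup (GL (Fin 2) ℝ)) 2)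
    (hg : (g : ℍ → ℂ) = ∑ x, (f : ℍ → ℂ) ∣[(2 : ℤ)] C.rep x) :
    (perData hΓ).per g = C.op ℂ ((perData hΓ).per f) :=
  perHom_corr hΓ C hC (cuspIncl' Γ f) (cuspIncl' Γ g) hg

end Fermat.Agent.S48.Coh1
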