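import Fermat.Agent.S48.Coh1.Lattice

/-!
# S48 / Coh1: the support property, abstractly

`S` a complex vector space (`S₂(Γ)`), `per : S → Hom(Γ, ℂ)` an injective linear map into the parabolic
characters, `Top i` operators on `S`, `C i` correspondences on `Γ` with
`per (Top i f) = (C i).op (per f)`.  Then a noncommutative polynomial in the `C i` killing
`Hom_{par,ell}(Γ, ℤ/m)` acts on `S` as `m` times an integral operator.
-/

set_option autoImplicit false
set_option linter.unusedSectionVars false

open UpperHalfPlane ModularForm CongruenceSubgroup Filter Topology Matrix.SpecialLinearGroup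
open scoped MatrixGroups ModularForm Manifold

namespace Fermat.Agent.S48.Coh1

open ModularCurve ModularCurve.Period Matrix

variable (Γ : Subgroup SL(2, ℤ)) [Γ.FiniteIndex]

/-- `comb` as an element of `homPar`. -/
noncomputable def combPar (K : Type) [CommRing K] (c : Fin (rk Γ) → K) : homPar Γ ℤ K :=
  ⟨comb Γ K c, isParEll_comb Γ c⟩

theorem combPar_add {K : Type} [CommRing K] (c c' : Fin (rk Γ) → K) :
    combPar Γ K (c + c') = combPar Γ K c + combPar Γ K c' := by
  apply Subtype.ext
  refine AddMonoidHom.ext fun g => ?_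
  simp [combPar, comb_apply, add_mul, Finset.sum_add_distrib]

theorem combPar_zsmul {K : Type} [CommRing K] (n : ℤ) (c : Fin (rk Γ) → K) :
    combPar Γ K (n • c) = n • combPar Γ K c := by
  apply Subtype.ext
  refine AddMonoidHom.ext fun g => ?_
  simp [combPar, comb_apply, Finset.mul_sum, mul_assoc]

theorem map_algebraMap_mulVec {r : ℕ} {K : Type} [CommRing K] (n : ℤ) (c : Fin r → K) :
    ((algebraMap ℤ (Matrix (Fin r) (Fin r) ℤ) n).map (Int.cast : ℤ → K)) *ᵥ c = n • c := by
  have : (algebraMap ℤ (Matrix (Fin r) (Fin r) ℤ) n).map (Int.cast : ℤ → K)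
      = (n : K) • (1 : Matrix (Fin r) (Fin r) K) := by
    ext i j
    simp only [Matrix.algebraMap_matrix_apply, Matrix.map_apply, Matrix.smul_apply,
      Matrix.one_apply]
    split_ifs <;> simp
  rw [this, Matrix.smul_mulVec, Matrix.one_mulVec]
  funext i
  simp

variable {Γ}

theorem opPar_combPar {K : Type} [CommRing K] (C : Corr Γ) (c : Fin (rk Γ) → K) :
    C.opPar ℤ K (combPar Γ K c) = combPar Γ K (((C.matᵀ).map (Int.cast : ℤ → K)) *ᵥ c) := by
  apply Subtype.ext
  show C.op K (comb Γ K c) = comb Γ K _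
  rw [Corr.op_comb]
  congr 1
  funext j
  simp only [Matrix.mulVec, dotProduct, Matrix.map_apply, Matrix.transpose_apply]
  exact Finset.sum_congr rfl fun i _ => mul_comm _ _

section Family

variable {ι : Type} (C : ι → Corr Γ)

/-- the matrix representation of the free algebra. -/
noncomputable def matRep : FreeAlgebra ℤ ι →ₐ[ℤ] Matrix (Fin (rk Γ)) (Fin (rk Γ)) ℤ :=
  FreeAlgebra.lift ℤ (fun i => (C i).matᵀ)

theorem lift_opPar_combPar {K : Type} [CommRing K] (P : FreeAlgebra ℤ ι) (c : Fin (rk Γ) → K) :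
    FreeAlgebra.lift ℤ (fun i => (C i).opPar ℤ K) P (combPar Γ K c)
      = combPar Γ K (((matRep C P).map (Int.cast : ℤ → K)) *ᵥ c) := by
  induction P using FreeAlgebra.induction generalizing c with
  | grade0 n =>
    rw [AlgHom.commutes, AlgHom.commutes, Module.algebraMap_end_apply, ← combPar_zsmul,
      map_algebraMap_mulVec]
  | grade1 i =>
    rw [FreeAlgebra.lift_ι_apply, matRep, FreeAlgebra.lift_ι_apply, opPar_combPar]
  | mul a b ha hb =>
    rw [map_mul, map_mul, Module.End.mul_apply, hb, ha, Matrix.mulVec_mulVec]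
    congr 2
    exact (Matrix.map_mul (f := Int.castRingHom K)).symm
  | add a b ha hb =>
    rw [map_add, map_add, LinearMap.add_apply, ha, hb, ← combPar_add, ← Matrix.add_mulVec]
    congr 2
    exact (Matrix.map_add _ Int.cast_add _ _).symm

/-- a polynomial killing `Hom_{par,ell}(Γ, ℤ/m)` has a matrix divisible by `m`. -/
theorem dvd_matRep (m : ℕ) (P : FreeAlgebra ℤ ι)
    (hP : FreeAlgebra.lift ℤ (fun i => (C i).opPar ℤ (ZMod m)) P = 0) (i j : Fin (rk Γ)) :
    (m : ℤ) ∣ matRep C P i j := by
  classical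
  have h1 := lift_opPar_combPar C P (Pi.single j (1 : ZMod m))
  rw [hP, LinearMap.zero_apply] at h1
  have h2 : comb Γ (ZMod m) (((matRep C P).map (Int.cast : ℤ → ZMod m)) *ᵥ Pi.single j 1) = 0 :=
    (congrArg Subtype.val h1).symm
  have h3 := comb_gam Γ (((matRep C P).map (Int.cast : ℤ → ZMod m)) *ᵥ Pi.single j 1) i
  rw [h2] at h3
  simp only [AddMonoidHom.zero_apply, Matrix.mulVec_single, Matrix.col_apply, Matrix.map_apply,
    MulOpposite.op_one, one_smul] at h3
  exact (CharP.intCast_eq_zero_iff (ZMod m) m _).1 h3.symm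

end Family

/-! ### the period datum -/

/-- An abstract period map. -/
structure PerData (Γ : Subgroup SL(2, ℤ)) (S : Type) [AddCommGroup S] [Module ℂ S] where
  /-- the period map -/
  per : S →ₗ[ℂ] (Additive Γ →+ ℂ)
  inj : Function.Injective per
  par : ∀ f, IsParabolicHom Γ (per f)

namespace PerData

variable {S : Type} [AddCommGroup S] [Module ℂ S] (D : PerData Γ S)

theorem isParEll (f : S) : IsParEll Γ (D.per f) := IsParEll.of_parabolic (D.par f)

/-- the coordinate vector of the period character. -/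
noncomputable def vec : S →ₗ[ℂ] (Fin (rk Γ) → ℂ) where
  toFun f i := D.per f (Additive.ofMul (gam Γ i))
  map_add' f g := by funext i; simp
  map_smul' c f := by funext i; simp

theorem comb_vec (f : S) : comb Γ ℂ (D.vec f) = D.per f := (eq_comb Γ _ (D.isParEll f)).symm

theorem vec_injective : Function.Injective D.vec := by
  intro f g h
  apply D.inj
  rw [← comb_vec, ← comb_vec, h]

/-- compatible pairs (operator on `S`, integral matrix). -/
noncomputable def compat :
    Subalgebra ℤ (Module.End ℂ S × Matrix (Fin (rk Γ)) (Fin (rk Γ)) ℤ) where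
  carrier := {x | ∀ f, D.vec (x.1 f) = (x.2.map (Int.cast : ℤ → ℂ)) *ᵥ D.vec f}
  mul_mem' := by
    intro x y hx hy f
    rw [Prod.fst_mul, Prod.snd_mul, Module.End.mul_apply, hx, hy, Matrix.mulVec_mulVec]
    congr 1
    exact (Matrix.map_mul (f := Int.castRingHom ℂ)).symm
  add_mem' := by
    intro x y hx hy f
    rw [Prod.fst_add, Prod.snd_add, LinearMap.add_apply, map_add, hx, hy, ← Matrix.add_mulVec]
    congr 1
    exact (Matrix.map_add _ Int.cast_add _ _).symm
  algebraMap_mem' := by
    intro n f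
    rw [Prod.algebraMap_apply]
    simp only
    rw [map_algebraMap_mulVec, Module.algebraMap_end_apply, map_zsmul]

theorem mem_compat {x : Module.End ℂ S × Matrix (Fin (rk Γ)) (Fin (rk Γ)) ℤ} :
    x ∈ D.compat ↔ ∀ f, D.vec (x.1 f) = (x.2.map (Int.cast : ℤ → ℂ)) *ᵥ D.vec f := Iff.rfl

theorem fst_eq_zero_of_mem_compat {x : Module.End ℂ S × Matrix (Fin (rk Γ)) (Fin (rk Γ)) ℤ}
    (hx : x ∈ D.compat) (h : x.2 = 0) : x.1 = 0 := by
  ext1 f
  apply D.vec_injective
  rw [hx f, h, LinearMap.zero_apply, map_zero]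
  simp

/-- an operator compatible with an integral matrix is integral. -/
theorem isIntegral_of_mem_compat {x : Module.End ℂ S × Matrix (Fin (rk Γ)) (Fin (rk Γ)) ℤ}
    (hx : x ∈ D.compat) : IsIntegral ℤ x.1 := by
  refine ⟨x.2.charpoly, x.2.charpoly_monic, ?_⟩
  set y : D.compat := Polynomial.aeval (⟨x, hx⟩ : D.compat) x.2.charpoly with hy
  have hy1 : y.1.1 = Polynomial.aeval x.1 x.2.charpoly := by
    have := Polynomial.aeval_algHom_apply
      ((AlgHom.fst ℤ _ _).comp D.compat.val) (⟨x, hx⟩ : D.compat) x.2.charpoly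
    exact this.symm
  have hy2 : y.1.2 = Polynomial.aeval x.2 x.2.charpoly := by
    have := Polynomial.aeval_algHom_apply
      ((AlgHom.snd ℤ _ _).comp D.compat.val) (⟨x, hx⟩ : D.compat) x.2.charpoly
    exact this.symm
  rw [Matrix.aeval_self_charpoly] at hy2
  have := D.fst_eq_zero_of_mem_compat y.2 hy2
  rw [hy1] at this
  exact this

theorem pair_mem (T : Module.End ℂ S) (C : Corr Γ) (h : ∀ f, D.per (T f) = C.op ℂ (D.per f)) :
    (T, C.matᵀ) ∈ D.compat := by
  intro f
  have h1 := C.op_comb (D.vec f)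
  rw [comb_vec, ← h, ← comb_vec] at h1
  have h2 := comb_injective Γ h1
  show D.vec (T f) = _
  rw [h2]
  funext j
  simp only [Matrix.mulVec, dotProduct, Matrix.map_apply, Matrix.transpose_apply]
  exact Finset.sum_congr rfl fun i _ => mul_comm _ _

variable {ι : Type} (Top : ι → Module.End ℂ S) (C : ι → Corr Γ)
  (hTC : ∀ i f, D.per (Top i f) = (C i).op ℂ (D.per f))

include hTC in
theorem liftPair_mem (P : FreeAlgebra ℤ ι) :
    (FreeAlgebra.lift ℤ Top P, matRep C P) ∈ D.compat := by
  induction P using FreeAlgebra.induction with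
  | grade0 n =>
    rw [AlgHom.commutes, AlgHom.commutes]
    have := D.compat.algebraMap_mem n
    rwa [Prod.algebraMap_apply] at this
  | grade1 i =>
    rw [FreeAlgebra.lift_ι_apply, matRep, FreeAlgebra.lift_ι_apply]
    exact D.pair_mem _ _ (hTC i)
  | mul a b ha hb =>
    rw [map_mul, map_mul]
    have := D.compat.mul_mem ha hb
    rwa [Prod.mk_mul_mk] at this
  | add a b ha hb =>
    rw [map_add, map_add]
    have := D.compat.add_mem ha hb
    rwa [Prod.mk_add_mk] at this

include hTC in
/-- every polynomial in the operators is integral. -/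
theorem isIntegral_lift (P : FreeAlgebra ℤ ι) : IsIntegral ℤ (FreeAlgebra.lift ℤ Top P) :=
  D.isIntegral_of_mem_compat (D.liftPair_mem Top C hTC P)

include hTC in
/-- **Support property on the cohomology side.** -/
theorem supp (m : ℕ) (P : FreeAlgebra ℤ ι)
    (hP : FreeAlgebra.lift ℤ (fun i => (C i).opPar ℤ (ZMod m)) P = 0) :
    ∃ Q : Module.End ℂ S, IsIntegral ℤ Q ∧ FreeAlgebra.lift ℤ Top P = (m : ℤ) • Q := by
  classical
  choose M' hM' using dvd_matRep C m P hP
  have hM : matRep C P = (m : ℤ) • Matrix.of M' := by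
    ext i j
    rw [hM' i j]
    simp
  rcases Nat.eq_zero_or_pos m with rfl | hm
  · refine ⟨0, isIntegral_zero, ?_⟩
    rw [smul_zero]
    exact D.fst_eq_zero_of_mem_compat (D.liftPair_mem Top C hTC P) (by simpa using hM)
  · have hm' : (m : ℂ) ≠ 0 := by exact_mod_cast hm.ne'
    set Q : Module.End ℂ S := (m : ℂ)⁻¹ • FreeAlgebra.lift ℤ Top P with hQ
    have hQmem : (Q, Matrix.of M') ∈ D.compat := by
      intro f
      have h1 := D.liftPair_mem Top C hTC P f
      show D.vec (Q f) = _
      rw [hQ, LinearMap.smul_apply, map_smul, h1]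
      simp only [hM]
      have : (((m : ℤ) • Matrix.of M').map (Int.cast : ℤ → ℂ))
          = (m : ℂ) • ((Matrix.of M').map (Int.cast : ℤ → ℂ)) := by
        ext i j
        simp
      rw [this, Matrix.smul_mulVec, smul_smul, inv_mul_cancel₀ hm', one_smul]
    refine ⟨Q, D.isIntegral_of_mem_compat hQmem, ?_⟩
    rw [hQ]
    ext1 f
    simp only [LinearMap.smul_apply]
    rw [← Int.cast_smul_eq_zsmul ℂ, smul_smul]
    simp [hm']

end PerData

end Fermat.Agent.S48.Coh1
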